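import Fermat.Agent.SharpChebotarev.Kernel
import Fermat.Agent.DedekindExplicit.Psi

/-!
# A unit step of the kernel against a piece

`x ↦ ∫ x^(s+1) / (s (s+1)) H'/H` on `re s = 1` changes by `O (size y √y log y)` from `y` to `y + 1`:
the zeros up to height `y` give the logarithm, the line `re s = 1/4` gives `O (size 0 √y)`.
-/

set_option autoImplicit false

noncomputable section

open Complex Filter MeasureTheory Set
open FA.DedekindExplicit (rawKer norm_rawKer_diff_far)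
open scoped Real Classical

namespace FA.SharpCheb

theorem lineSize_le_rpow_eighth {a : ℝ} {n : ℕ} (ha : 1 ≤ a) (t : ℝ) :
    lineSize a n t ≤ 24 * lineSize a n 0 * (1 + |t|) ^ (1 / 8 : ℝ) := by
  have hp : 1 ≤ (1 + |t|) ^ (1 / 8 : ℝ) :=
    Real.one_le_rpow (by linarith [abs_nonneg t]) (by norm_num)
  have h1 : Real.log (|t| + 3) ≤ 24 * (1 + |t|) ^ (1 / 8 : ℝ) := by
    refine (Real.log_le_rpow_div (by positivity) (show (0 : ℝ) < 1 / 8 by norm_num)).trans ?_
    rw [div_le_iff₀ (by norm_num)]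
    refine (Real.rpow_le_rpow (by positivity) (show |t| + 3 ≤ 3 * (1 + |t|) by
      linarith [abs_nonneg t]) (by norm_num)).trans ?_
    rw [Real.mul_rpow (by norm_num) (by positivity),
      show 24 * (1 + |t|) ^ (1 / 8 : ℝ) * (1 / 8) = 3 * (1 + |t|) ^ (1 / 8 : ℝ) by ring]
    exact mul_le_mul_of_nonneg_right (Real.rpow_le_self_of_one_le (by norm_num) (by norm_num))
      (by positivity)
  have hn : (0 : ℝ) ≤ n := Nat.cast_nonneg n
  have h4 : a + n ≤ lineSize a n 0 := by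
    rw [lineSize]
    linarith [le_mul_of_one_le_right hn (FA.DedekindZF.one_le_log (0 : ℝ))]
  have h5 : a ≤ 24 * a * (1 + |t|) ^ (1 / 8 : ℝ) :=
    le_trans (by linarith) (le_mul_of_one_le_right (by linarith) hp)
  rw [lineSize]
  refine le_trans ?_ (mul_le_mul_of_nonneg_right (mul_le_mul_of_nonneg_left h4 (by norm_num))
    (zero_le_one.trans hp))
  linarith [mul_le_mul_of_nonneg_left h1 hn]

theorem norm_rawKer_diff_left {u v y : ℝ} (hu : 1 / 4 ≤ u) (hu1 : u ≤ 1) (hy : 1 ≤ y) :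
    ‖rawKer (y + 1) ((u : ℂ) + v * I) - rawKer y ((u : ℂ) + v * I)‖ ≤
      10 * y ^ u / (1 + |v|) ∧
    ‖rawKer (y + 1) ((u : ℂ) + v * I) - rawKer y ((u : ℂ) + v * I)‖ ≤
      50 * y ^ (u + 1) / (1 + |v|) ^ 2 := by
  have h0 : 0 < ((u : ℂ) + v * I).re := by simp; linarith
  have hyu : 0 ≤ y ^ u := Real.rpow_nonneg (by linarith) _
  obtain ⟨h1, -⟩ := one_add_abs_le (v := v) hu
  have hv : 0 < 1 + |v| := by positivity
  constructor
  · refine (FA.DedekindExplicit.norm_rawKer_diff_le h0 (β := u) (by simp) hu1 hy).trans ?_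
    rw [div_le_div_iff₀ (norm_pos_iff.2 fun h => by simp [h] at h0) hv]
    linarith [mul_le_mul_of_nonneg_left h1 (show 0 ≤ 2 * y ^ u by linarith)]
  · refine (norm_sub_le _ _).trans ((add_le_add (norm_rawKer_strip (by linarith) hu)
      (norm_rawKer_strip (by linarith) hu)).trans ?_)
    rw [← add_div]
    refine div_le_div_of_nonneg_right ?_ (by positivity)
    have h4 : (y + 1) ^ (u + 1) ≤ 4 * y ^ (u + 1) := by
      refine (Real.rpow_le_rpow (by linarith) (show y + 1 ≤ 2 * y by linarith)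
        (by linarith)).trans ?_
      rw [Real.mul_rpow (by norm_num) (by linarith)]
      refine mul_le_mul_of_nonneg_right ?_ (Real.rpow_nonneg (by linarith) _)
      refine (Real.rpow_le_rpow_of_exponent_le (by norm_num) (show u + 1 ≤ (2 : ℕ) by
        push_cast; linarith)).trans ?_
      rw [Real.rpow_natCast]
      norm_num
    linarith

theorem norm_rawKer_diff_quarter {v y : ℝ} (hy : 1 ≤ y) :
    ‖rawKer (y + 1) (((1 / 4 : ℝ) : ℂ) + v * I) - rawKer y (((1 / 4 : ℝ) : ℂ) + v * I)‖ ≤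
      50 * √y * (1 + |v|) ^ (-(5 / 4) : ℝ) := by
  obtain ⟨hP, hQ⟩ := norm_rawKer_diff_left (v := v) (u := 1 / 4) le_rfl (by norm_num) hy
  have hv : 0 < 1 + |v| := by positivity
  have hy0 : 0 < y := by linarith
  rcases le_total y (1 + |v|) with hle | hle
  · refine hQ.trans ?_
    rw [show (-(5 / 4) : ℝ) = 3 / 4 - 2 by norm_num, Real.rpow_sub hv, Real.rpow_two,
      mul_div_assoc']
    refine div_le_div_of_nonneg_right ?_ (by positivity)
    rw [show (1 / 4 + 1 : ℝ) = 1 / 2 + 3 / 4 by norm_num, Real.rpow_add hy0, ← Real.sqrt_eq_rpow,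
      ← mul_assoc]
    exact mul_le_mul_of_nonneg_left (Real.rpow_le_rpow hy0.le hle (by norm_num)) (by positivity)
  · refine hP.trans ?_
    rw [show (-(5 / 4) : ℝ) = -(1 / 4) - 1 by norm_num, Real.rpow_sub hv, Real.rpow_one,
      mul_div_assoc']
    refine div_le_div_of_nonneg_right ?_ hv.le
    rw [Real.rpow_neg hv.le, ← div_eq_mul_inv, le_div_iff₀ (by positivity)]
    have h := Real.rpow_le_rpow hv.le hle (show (0 : ℝ) ≤ 1 / 4 by norm_num)
    refine (mul_le_mul_of_nonneg_left h (by positivity)).trans ?_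
    rw [mul_assoc, ← Real.rpow_add hy0, Real.sqrt_eq_rpow]
    norm_num
    linarith [Real.rpow_nonneg hy0.le (1 / 2 : ℝ)]

/-- **A unit step of the kernel alone.** -/
theorem exists_rawKer_step : ∃ C, 0 ≤ C ∧ ∀ y : ℝ, 1 ≤ y →
    ‖(∫ v : ℝ, rawKer (y + 1) (((1 : ℝ) : ℂ) + v * I)) -
      ∫ v : ℝ, rawKer y (((1 : ℝ) : ℂ) + v * I)‖ ≤ C * √y := by
  obtain ⟨J, hJ⟩ : ∃ J, J = ∫ v : ℝ, (1 + |v|) ^ (-(5 / 4) : ℝ) := ⟨_, rfl⟩
  refine ⟨50 * J, mul_nonneg (by norm_num) (hJ ▸ integral_nonneg fun v => by positivity),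
    fun y hy => ?_⟩
  obtain ⟨i1, e1⟩ := rawKer_line_shift (x := y + 1) (by linarith)
  obtain ⟨i2, e2⟩ := rawKer_line_shift hy
  rw [e1, e2, ← integral_sub (i1 _ le_rfl (by norm_num)) (i2 _ le_rfl (by norm_num))]
  refine (norm_integral_le_of_norm_le
    ((FA.PiltzDivisor.integrable_one_add_abs_rpow (r := -(5 / 4)) (by norm_num)).const_mul
      (50 * √y)) (Eventually.of_forall fun v => norm_rawKer_diff_quarter hy)).trans
      (le_of_eq (by rw [integral_const_mul, ← hJ]; ring))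

/-- **The zeros in a unit step.** -/
theorem exists_zero_step : ∃ C, 0 ≤ C ∧ ∀ {H : ℂ → ℂ} {a : ℝ} {n : ℕ}, CriticalPiece H a n →
    ∀ y : ℝ, 1 ≤ y → ∀ S : Finset ℂ, (∀ ρ ∈ S, 0 < ρ.re ∧ H ρ = 0) →
      ∑ ρ ∈ S, (analyticOrderNatAt H ρ : ℝ) * ‖rawKer (y + 1) ρ - rawKer y ρ‖ ≤
        C * (√y * lineSize a n (y + 1) * (1 + Real.log (y + 2))) := by
  obtain ⟨Ch, hCh, hhead⟩ := exists_head
  obtain ⟨Ct, hCt, htail⟩ := exists_tail
  refine ⟨10 * Ch + 45 * Ct, by positivity, fun {H a n} hH y hy S hS => ?_⟩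
  have hy0 : 0 < y := by linarith
  have hh1 := one_le_lineSize (n := n) hH.one_le (y + 1)
  have hlog : 0 ≤ Real.log (y + 2) := Real.log_nonneg (by linarith)
  obtain ⟨N, hN⟩ : ∃ N : ℕ, N = ⌊y⌋₊ + 1 := ⟨_, rfl⟩
  have hN1 : (N : ℝ) ≤ y + 1 := by rw [hN]; push_cast; linarith [Nat.floor_le hy0.le]
  have hN2 : y < N := by rw [hN]; push_cast; exact Nat.lt_floor_add_one y
  have hHN : lineSize a n N ≤ lineSize a n (y + 1) := lineSize_mono (by
    rw [Nat.abs_cast, abs_of_nonneg (by linarith)]; exact hN1)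
  have hLN : Real.log ((N : ℝ) + 1) ≤ Real.log (y + 2) :=
    Real.log_le_log (by positivity) (by linarith)
  have hP : y ^ (1 / 2 : ℝ) = √y := (Real.sqrt_eq_rpow y).symm
  rw [← Finset.sum_filter_add_sum_filter_not S (fun ρ : ℂ => |ρ.im| ≤ N)]
  have b1 : ∑ ρ ∈ S.filter (fun ρ : ℂ => |ρ.im| ≤ N),
      (analyticOrderNatAt H ρ : ℝ) * ‖rawKer (y + 1) ρ - rawKer y ρ‖ ≤
        10 * Ch * (√y * lineSize a n (y + 1) * (1 + Real.log (y + 2))) := by
    refine (Finset.sum_le_sum (g := fun ρ => 10 * √y *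
      ((analyticOrderNatAt H ρ : ℝ) / (1 + |ρ.im|))) fun ρ hρ => ?_).trans ?_
    · obtain ⟨hρS, -⟩ := Finset.mem_filter.1 hρ
      have hre := hH.crit ρ (hS ρ hρS).1 (hS ρ hρS).2
      have hk := (norm_rawKer_diff_left (v := ρ.im) (show (1 / 4 : ℝ) ≤ ρ.re by linarith)
        (by linarith) hy).1
      rw [Complex.re_add_im, hre, hP] at hk
      exact (mul_le_mul_of_nonneg_left hk (Nat.cast_nonneg _)).trans (le_of_eq (by ring))
    · rw [← Finset.mul_sum]
      refine (mul_le_mul_of_nonneg_left (hhead hH N _ fun ρ hρ =>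
        ⟨(hS ρ (Finset.mem_filter.1 hρ).1).1, (Finset.mem_filter.1 hρ).2⟩)
        (by positivity)).trans ?_
      rw [show 10 * Ch * (√y * lineSize a n (y + 1) * (1 + Real.log (y + 2))) =
        10 * √y * (Ch * lineSize a n (y + 1) * (1 + Real.log (y + 2))) by ring]
      refine mul_le_mul_of_nonneg_left ?_ (by positivity)
      exact mul_le_mul (mul_le_mul_of_nonneg_left hHN hCh) (by linarith)
        (add_nonneg zero_le_one (Real.log_nonneg (le_add_of_nonneg_left (Nat.cast_nonneg N))))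
        (mul_nonneg hCh (by linarith))
  have b2 : ∑ ρ ∈ S.filter (fun ρ : ℂ => ¬|ρ.im| ≤ N),
      (analyticOrderNatAt H ρ : ℝ) * ‖rawKer (y + 1) ρ - rawKer y ρ‖ ≤
        45 * Ct * (√y * lineSize a n (y + 1) * (1 + Real.log (y + 2))) := by
    refine (Finset.sum_le_sum (g := fun ρ => 45 * y ^ ((1 / 2 : ℝ) + 1) *
      ((analyticOrderNatAt H ρ : ℝ) / (1 + |ρ.im|) ^ 2)) fun ρ hρ => ?_).trans ?_
    · obtain ⟨hρS, hi⟩ := Finset.mem_filter.1 hρ
      have hre := hH.crit ρ (hS ρ hρS).1 (hS ρ hρS).2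
      refine (mul_le_mul_of_nonneg_left (norm_rawKer_diff_far (hS ρ hρS).1 hre.le (by norm_num)
        (le_trans (hy.trans hN2.le) (lt_of_not_ge hi).le) hy) (Nat.cast_nonneg _)).trans
        (le_of_eq (by ring))
    · rw [← Finset.mul_sum]
      refine (mul_le_mul_of_nonneg_left (htail hH N _ fun ρ hρ =>
        ⟨(hS ρ (Finset.mem_filter.1 hρ).1).1, (lt_of_not_ge (Finset.mem_filter.1 hρ).2).le⟩)
        (by positivity)).trans ?_
      have e1 : Ct * lineSize a n N / ((N : ℝ) + 1) ≤ Ct * lineSize a n (y + 1) / y :=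
        div_le_div₀ (mul_nonneg hCt (by linarith)) (mul_le_mul_of_nonneg_left hHN hCt) hy0
          (by linarith)
      refine (mul_le_mul_of_nonneg_left e1 (by positivity)).trans ?_
      rw [show 45 * y ^ ((1 / 2 : ℝ) + 1) * (Ct * lineSize a n (y + 1) / y) =
        45 * Ct * (√y * lineSize a n (y + 1)) by
          rw [Real.rpow_add_one hy0.ne', hP]; field_simp, ← mul_assoc (45 * Ct) _ (1 + _)]
      exact le_mul_of_one_le_right (mul_nonneg (by positivity)
        (mul_nonneg (Real.sqrt_nonneg y) (by linarith))) (by linarith)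
  linarith

/-- **A unit step against a piece.** -/
theorem exists_piece_step : ∃ C, 0 ≤ C ∧ ∀ {H : ℂ → ℂ} {a : ℝ} {n : ℕ}, CriticalPiece H a n →
    ∀ y : ℝ, 1 ≤ y →
      ‖(∫ v, pieceLine H (rawKer (y + 1)) 1 v) - ∫ v, pieceLine H (rawKer y) 1 v‖ ≤
        C * (√y * lineSize a n (y + 1) * (1 + Real.log (y + 2))) := by
  obtain ⟨Cl, hCl, hloc⟩ := exists_local
  obtain ⟨Cz, hCz, hzero⟩ := exists_zero_step
  obtain ⟨Ck, -, hker⟩ := exists_rawKer_piece
  obtain ⟨J, hJ⟩ : ∃ J, J = ∫ v : ℝ, (1 + |v|) ^ (-(9 / 8) : ℝ) := ⟨_, rfl⟩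
  have hJ0 : 0 ≤ J := hJ ▸ integral_nonneg fun v => by positivity
  refine ⟨2 * π * Cz + 4800 * Cl * J, by positivity, fun {H a n} hH y hy => ?_⟩
  obtain ⟨Φ, hΦ⟩ : ∃ Φ : ℂ → ℂ, Φ = fun s => rawKer (y + 1) s - rawKer y s := ⟨_, rfl⟩
  have e : pieceLine H Φ 1 = fun v => pieceLine H (rawKer (y + 1)) 1 v -
      pieceLine H (rawKer y) 1 v := by
    funext v
    simp only [pieceLine, hΦ]
    ring
  rw [← integral_sub (hker hH (y + 1) (by linarith)).1 (hker hH y hy).1, ← e]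
  have hd : ∀ s : ℂ, 0 < s.re → DifferentiableAt ℂ Φ s := fun s hs =>
    hΦ ▸ (differentiableAt_rawKer (by linarith) s hs).sub
      (differentiableAt_rawKer (by linarith) s hs)
  have hb : ∀ u v : ℝ, 1 / 4 ≤ u → u ≤ 1 →
      ‖Φ ((u : ℂ) + v * I)‖ ≤ 50 * y ^ ((1 : ℝ) + 1) / (1 + |v|) ^ 2 := fun u v hu hu1 => by
    rw [hΦ]
    exact (norm_rawKer_diff_left hu hu1 hy).2.trans (div_le_div_of_nonneg_right
      (mul_le_mul_of_nonneg_left (Real.rpow_le_rpow_of_exponent_le hy (by linarith)) (by norm_num))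
      (by positivity))
  have hq : ‖∫ v, pieceLine H Φ (1 / 4) v‖ ≤ 4800 * Cl * J * (√y * lineSize a n 0) := by
    refine (norm_integral_le_of_norm_le
      ((FA.PiltzDivisor.integrable_one_add_abs_rpow (r := -(9 / 8)) (by norm_num)).const_mul
        (4800 * Cl * (√y * lineSize a n 0))) (Eventually.of_forall fun v => ?_)).trans
        (le_of_eq (by rw [integral_const_mul, ← hJ]; ring))
    have hne : ∀ ρ : ℂ, 0 < ρ.re → H ρ = 0 → 1 / 4 ≤ ‖(((1 / 4 : ℝ) : ℂ) + v * I) - ρ‖ := by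
      intro ρ h0 hρ
      refine le_trans ?_ (abs_re_le_norm _)
      simp only [sub_re, add_re, ofReal_re, mul_re, I_re, mul_zero, ofReal_im, I_im, mul_one,
        sub_self, add_zero, hH.crit ρ h0 hρ]
      norm_num
    have hb4 : ‖Φ (((1 / 4 : ℝ) : ℂ) + v * I)‖ ≤ 50 * √y * (1 + |v|) ^ (-(5 / 4) : ℝ) := by
      rw [hΦ]
      exact norm_rawKer_diff_quarter hy
    rw [pieceLine, norm_mul]
    refine (mul_le_mul hb4
      (((hloc hH v).2 (1 / 4) (1 / 4) le_rfl (by norm_num) (by norm_num) (by norm_num) hne).trans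
        (div_le_div_of_nonneg_right (mul_le_mul_of_nonneg_left
          (lineSize_le_rpow_eighth hH.one_le v) hCl) (by norm_num)))
      (norm_nonneg _) (by positivity)).trans (le_of_eq ?_)
    have hv : 0 < 1 + |v| := by positivity
    rw [show (-(9 / 8) : ℝ) = -(5 / 4) + 1 / 8 by norm_num, Real.rpow_add hv]
    ring
  refine (norm_pieceLine_one_le hH hd (by positivity) hb
    (Z := Cz * (√y * lineSize a n (y + 1) * (1 + Real.log (y + 2)))) fun S hS =>
      hΦ ▸ hzero hH y hy S hS).trans ?_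
  have h0 : lineSize a n 0 ≤ lineSize a n (y + 1) := lineSize_mono (by simp)
  have h1 : √y * lineSize a n 0 ≤ √y * lineSize a n (y + 1) * (1 + Real.log (y + 2)) :=
    (mul_le_mul_of_nonneg_left h0 (Real.sqrt_nonneg y)).trans (le_mul_of_one_le_right
      (mul_nonneg (Real.sqrt_nonneg y) (zero_le_one.trans (one_le_lineSize hH.one_le _)))
      (le_add_of_nonneg_right (Real.log_nonneg (by linarith))))
  have h2 := mul_le_mul_of_nonneg_left h1 (show 0 ≤ 4800 * Cl * J by positivity)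
  linarith

end FA.SharpCheb

end
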