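import Fermat.Agent.SharpChebotarev.Moment
import Fermat.Agent.SharpChebotarev.Step
import Fermat.Agent.ChebotarevError.Count

/-!
# The conditional theorem of Lagarias and Odlyzko

`ψ_C x = σ x + O (σ √x log x (log |d_L| + n_L log x))` and
`π_C x = σ li x + O (σ √x (log |d_L| + n_L log x))`.
-/

set_option autoImplicit false
set_option linter.style.haveILetI false
set_option linter.unusedSectionVars false

noncomputable section

universe u v

open NumberField IsDedekindDomain Module Finset Complex MeasureTheory Filter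
open FA.ArtinHooley (FieldRH)
open FA.DedekindPIT (momentSum momentSum_sub_bounds partialSum)
open FA.ChebError (share share_nonneg mangoldtF mangoldtF_nonneg setLog)
open FA.EffCheb (pairs pairW cycL cyc_comm liftChar)
open FA.NaturalChebotarev (countIn someFrobSet)
open FA.DedekindExplicit (rawKer height_step_le height_mono)
open FA.DedekindZeroCount (discLog discLog_nonneg)
open FA.DedekindZF (height one_le_height)
open scoped Real Classical ArithmeticFunction.vonMangoldt

namespace FA.SharpCheb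

/-- **A unit step of the moment of `Λ_C`.** -/
theorem exists_momentF_step : ∃ A, 0 ≤ A ∧ ∀ {K : Type u} {L : Type v} [Field K] [NumberField K]
    [Field L] [NumberField L] [Algebra K L] [IsGalois K L], FieldRH L →
    ∀ C : Set (L ≃ₐ[K] L), (∀ g ∈ C, ∀ x, x * g * x⁻¹ ∈ C) → ∀ y : ℝ, 1 < y →
      |momentSum (mangoldtF C) (y + 1) - momentSum (mangoldtF C) y - share C * y| ≤
        A * share C * (√y * (height L (y + 1) * (1 + Real.log (y + 2)))) := by
  obtain ⟨Cs, hCs, hstep⟩ := exists_piece_step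
  obtain ⟨Cl, hCl, hlin⟩ := exists_rawKer_step
  refine ⟨2 * Cs + Cl + 1, by positivity, fun {K L} _ _ _ _ _ _ hRH C hC y hy => ?_⟩
  have hs := share_nonneg C
  obtain ⟨P, hP⟩ : ∃ P, P = √y * (height L (y + 1) * (1 + Real.log (y + 2))) := ⟨_, rfl⟩
  rw [← hP]
  have hlog : 0 ≤ Real.log (y + 2) := Real.log_nonneg (by linarith)
  have hh : 1 ≤ height L (y + 1) * (1 + Real.log (y + 2)) :=
    one_le_mul_of_one_le_of_one_le (one_le_height L _) (le_add_of_nonneg_right hlog)
  have hyP : √y ≤ P := hP ▸ le_mul_of_one_le_right (Real.sqrt_nonneg y) hh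
  have hP1 : 1 ≤ P := le_trans (Real.one_le_sqrt.2 hy.le) hyP
  rw [← Real.norm_eq_abs, ← Complex.norm_real]
  have e : ((momentSum (mangoldtF C) (y + 1) - momentSum (mangoldtF C) y - share C * y : ℝ) : ℂ) =
      ((share C * (1 / 2) : ℝ) : ℂ) + (1 / (2 * π)) •
        (-(∑ p ∈ pairs C, pairW p * ((∫ v, pieceLine (cycL p) (rawKer (y + 1)) 1 v) -
            ∫ v, pieceLine (cycL p) (rawKer y) 1 v)) -
          (share C : ℂ) * ((∫ v : ℝ, rawKer (y + 1) (((1 : ℝ) : ℂ) + v * I)) -
            ∫ v : ℝ, rawKer y (((1 : ℝ) : ℂ) + v * I))) := by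
    simp only [ofReal_sub, momentF_eq hRH hC hy, momentF_eq hRH hC (show 1 < y + 1 by linarith),
      mul_sub, Finset.sum_sub_distrib, smul_sub, smul_neg]
    push_cast
    ring
  rw [e]
  refine (norm_add_le _ _).trans ?_
  rw [Complex.norm_real, Real.norm_eq_abs, abs_of_nonneg (by positivity), norm_smul,
    Real.norm_eq_abs, abs_of_nonneg (by positivity)]
  have h1 := norm_sum_pairs_le C
    (F := fun p => (∫ v, pieceLine (cycL p) (rawKer (y + 1)) 1 v) -
      ∫ v, pieceLine (cycL p) (rawKer y) 1 v)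
    (A := Cs * (√y * (1 + Real.log (y + 2)))) (t := y + 1) (by positivity) fun p =>
      ((hstep (criticalPiece_clearedL (cyc_comm p.1) hRH (liftChar p.1 p.2)) y hy.le)).trans
        (le_of_eq (by rw [lineSize_charSize]; ring))
  have h2 := mul_le_mul_of_nonneg_left ((hlin y hy.le).trans
    (mul_le_mul_of_nonneg_left hyP hCl)) hs
  have hπ : 1 / (2 * π) ≤ 1 := by
    rw [div_le_one (by positivity)]
    linarith [Real.pi_gt_three]
  have h3 : ‖(share C : ℂ) * ((∫ v : ℝ, rawKer (y + 1) (((1 : ℝ) : ℂ) + v * I)) -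
      ∫ v : ℝ, rawKer y (((1 : ℝ) : ℂ) + v * I))‖ ≤ share C * (Cl * P) := by
    rw [norm_mul, Complex.norm_real, Real.norm_eq_abs, abs_of_nonneg hs]
    exact h2
  refine (add_le_add (mul_le_mul_of_nonneg_left (show (1 / 2 : ℝ) ≤ P by linarith) hs)
    ((mul_le_of_le_one_left (norm_nonneg _) hπ).trans ((norm_sub_le _ _).trans
      (add_le_add ((norm_neg _).le.trans h1) h3)))).trans (le_of_eq ?_)
  rw [hP]
  ring

/-- **`ψ_C` on the hypothesis of Riemann.** -/
theorem exists_psiF_sharp : ∃ A, 0 ≤ A ∧ ∀ {K : Type u} {L : Type v} [Field K] [NumberField K]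
    [Field L] [NumberField L] [Algebra K L] [IsGalois K L], FieldRH L →
    ∀ C : Set (L ≃ₐ[K] L), (∀ g ∈ C, ∀ x, x * g * x⁻¹ ∈ C) → ∀ x : ℝ, 2 ≤ x →
      |partialSum (mangoldtF C) x - share C * x| ≤
        A * share C * (√x * Real.log x * (discLog L + finrank ℚ L * Real.log x)) := by
  obtain ⟨A₀, hA₀, h⟩ := exists_momentF_step.{u, v}
  refine ⟨20 * A₀ + 8, by positivity, fun {K L} _ _ _ _ _ _ hRH C hC x hx => ?_⟩
  have hs := share_nonneg C
  obtain ⟨M, hM⟩ : ∃ M, M = √x * Real.log x * (discLog L + finrank ℚ L * Real.log x) := ⟨_, rfl⟩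
  rw [← hM]
  have hl : 0.69 ≤ Real.log x :=
    le_trans (by linarith [Real.log_two_gt_d9]) (Real.log_le_log two_pos hx)
  have hn : (1 : ℝ) ≤ finrank ℚ L := Nat.one_le_cast.2 finrank_pos
  have hd := discLog_nonneg L
  have hsx : 1 ≤ √x := Real.one_le_sqrt.2 (by linarith)
  have hM0 : 0.47 * finrank ℚ L ≤ M := by
    have h1 : 0.47 * (finrank ℚ L : ℝ) ≤ Real.log x * (discLog L + finrank ℚ L * Real.log x) := by
      have h2 := mul_le_mul_of_nonneg_right (mul_le_mul hl hl (by norm_num) (by linarith))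
        (show (0 : ℝ) ≤ finrank ℚ L by linarith)
      have h3 : 0 ≤ Real.log x * discLog L := mul_nonneg (by linarith) hd
      nlinarith
    rw [hM, mul_assoc]
    exact h1.trans (le_mul_of_one_le_left (by nlinarith) hsx)
  have hf : ∀ n, 1 ≤ n → 0 ≤ mangoldtF C n := fun n _ => mangoldtF_nonneg C n
  rcases lt_or_ge x 3 with h3 | h3
  · rcases C.eq_empty_or_nonempty with rfl | hne
    · obtain ⟨e1, e2, -⟩ := FA.EffCheb.trivial_empty (K := K) (L := L) x
      rw [e1, e2, zero_mul, sub_zero, abs_zero]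
      simp
    have h0 : 0 ≤ partialSum (mangoldtF C) x := Finset.sum_nonneg fun n _ => mangoldtF_nonneg C n
    have h1 : partialSum (mangoldtF C) x ≤ share C * finrank ℚ L := by
      refine (Finset.sum_le_sum fun n _ => FA.EffCheb.mangoldtF_le_share hne n).trans ?_
      rw [← Finset.mul_sum]
      refine mul_le_of_le_one_right (mul_nonneg hs (Nat.cast_nonneg _)) ?_
      have hfl : ⌊x⌋₊ = 2 := (Nat.floor_eq_iff (by linarith)).2 ⟨by push_cast; linarith,
        by push_cast; linarith⟩
      rw [hfl, Finset.sum_Icc_succ_top (by norm_num), Finset.Icc_self, Finset.sum_singleton,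
        ArithmeticFunction.vonMangoldt_apply_one, zero_add,
        ArithmeticFunction.vonMangoldt_apply_prime Nat.prime_two]
      push_cast
      linarith [Real.log_two_lt_d9]
    have h2 : share C * x ≤ share C * (3 * finrank ℚ L) :=
      mul_le_mul_of_nonneg_left (by linarith) hs
    have h4 := mul_le_mul_of_nonneg_left hM0 hs
    have h5 : 8 * (share C * M) ≤ (20 * A₀ + 8) * share C * M := by
      nlinarith [mul_nonneg hA₀ (mul_nonneg hs (le_trans (by positivity) hM0))]
    have h6 : 0 ≤ share C * finrank ℚ L := by positivity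
    have h7 : 0 ≤ share C * x := by positivity
    rw [abs_le]
    constructor <;> linarith
  have key : ∀ y, 1 < y → y ≤ x →
      |momentSum (mangoldtF C) (y + 1) - momentSum (mangoldtF C) y - share C * y| ≤
        20 * A₀ * share C * M := fun y h1 h2 => by
    refine (h hRH C hC y h1).trans ?_
    rw [hM, show 20 * A₀ * share C * (√x * Real.log x * (discLog L + finrank ℚ L * Real.log x)) =
      A₀ * share C *
        (√x * (20 * (Real.log x * (discLog L + finrank ℚ L * Real.log x)))) by ring]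
    exact mul_le_mul_of_nonneg_left (mul_le_mul (Real.sqrt_le_sqrt h2)
      (height_step_le L hx h1.le h2) (mul_nonneg (zero_le_one.trans (one_le_height L _))
        (add_nonneg zero_le_one (Real.log_nonneg (by linarith)))) (Real.sqrt_nonneg x))
      (mul_nonneg hA₀ hs)
  have up := (momentSum_sub_bounds hf (show 0 ≤ x by linarith) (show x ≤ x + 1 by linarith)).1
  have down := (momentSum_sub_bounds hf (show 0 ≤ x - 1 by linarith)
    (show x - 1 ≤ x by linarith)).2
  rw [add_sub_cancel_left, one_mul] at up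
  rw [sub_sub_cancel, one_mul] at down
  have k1 := abs_le.1 (key x (by linarith) le_rfl)
  have k2 := abs_le.1 (key (x - 1) (by linarith) (by linarith))
  rw [sub_add_cancel] at k2
  have h1M : share C ≤ 8 * (share C * M) := by
    have := mul_le_mul_of_nonneg_left (show (1 : ℝ) ≤ 8 * M by linarith) hs
    linarith
  rw [show (20 * A₀ + 8) * share C * M = 20 * A₀ * share C * M + 8 * (share C * M) by ring, abs_le]
  constructor <;> linarith [k1.1, k1.2, k2.1, k2.2]

/-- **`θ_C` on the hypothesis of Riemann.** -/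
theorem exists_thetaF_sharp : ∃ A, 0 ≤ A ∧ ∀ {K : Type u} {L : Type v} [Field K] [NumberField K]
    [Field L] [NumberField L] [Algebra K L] [IsGalois K L], FieldRH L →
    ∀ C : Set (L ≃ₐ[K] L), (∀ g ∈ C, ∀ x, x * g * x⁻¹ ∈ C) → C.Nonempty → ∀ x : ℝ, 2 ≤ x →
      |partialSum (setLog (someFrobSet K L C)) x - share C * x| ≤
        A * share C * (√x * Real.log x * (discLog L + finrank ℚ L * Real.log x)) := by
  obtain ⟨A, hA, h⟩ := exists_psiF_sharp.{u, v}
  refine ⟨A + 6, by positivity, fun {K L} _ _ _ _ _ _ hRH C hC hne x hx => ?_⟩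
  have hs := share_nonneg C
  have h1 := h hRH C hC x hx
  have h2 := FA.ChebGRH.psiF_sub_theta_le_share hC hne (show 1 ≤ x by linarith)
  obtain ⟨M, hM⟩ : ∃ M, M = √x * Real.log x * (discLog L + finrank ℚ L * Real.log x) := ⟨_, rfl⟩
  rw [← hM] at h1 ⊢
  have hl : 0.69 ≤ Real.log x :=
    le_trans (by linarith [Real.log_two_gt_d9]) (Real.log_le_log two_pos hx)
  have hn : (1 : ℝ) ≤ finrank ℚ L := Nat.one_le_cast.2 finrank_pos
  have hd := discLog_nonneg L
  have hsx : 1 ≤ √x := Real.one_le_sqrt.2 (by linarith)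
  have hP : 0.69 ≤ √x * Real.log x := hl.trans (le_mul_of_one_le_left (by linarith) hsx)
  have e1 : Real.log (((discr L).natAbs : ℕ) : ℝ) ≤ 1.5 * M := by
    rw [hM, show Real.log (((discr L).natAbs : ℕ) : ℝ) = discLog L from rfl]
    have := mul_le_mul_of_nonneg_right hP (show 0 ≤ discLog L + finrank ℚ L * Real.log x by
      positivity)
    nlinarith
  have e2 : (finrank ℚ L : ℝ) * (2 * √x * Real.log x) ≤ 3 * M := by
    rw [hM]
    have := mul_le_mul_of_nonneg_left (show (2 : ℝ) * finrank ℚ L ≤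
      3 * (discLog L + finrank ℚ L * Real.log x) by nlinarith)
      (show 0 ≤ √x * Real.log x by linarith)
    linarith
  have e1' := mul_le_mul_of_nonneg_left e1 hs
  have e2' := mul_le_mul_of_nonneg_left e2 hs
  have hM0 : 0 ≤ share C * M := mul_nonneg hs (hM ▸ by positivity)
  rw [abs_le] at h1 h2 ⊢
  constructor <;> linarith

/-- Partial summation from `O (√t log t)`. -/
theorem parts_log_le {T : ℝ → ℝ} {σ B x : ℝ} (hσ : 0 ≤ σ) (hx : 2 ≤ x) (hB : 0 ≤ B)
    (hi : IntervalIntegrable (fun t => T t / (t * Real.log t ^ 2)) volume 2 x)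
    (hT : ∀ t : ℝ, 2 ≤ t → t ≤ x → |T t - σ * t| ≤ B * (√t * Real.log t)) :
    |T x / Real.log x + (∫ t in (2 : ℝ)..x, T t / (t * Real.log t ^ 2)) -
        σ * ∫ t in (2 : ℝ)..x, 1 / Real.log t| ≤ 5 * (B * √x) + 3 * σ := by
  have hlx : 0.69 ≤ Real.log x :=
    le_trans (by linarith [Real.log_two_gt_d9]) (Real.log_le_log two_pos hx)
  have hl2 : 0.69 < Real.log 2 := lt_trans (by norm_num) Real.log_two_gt_d9
  have hne : ∀ t ∈ Set.uIcc 2 x, 2 ≤ t ∧ t ≠ 0 ∧ Real.log t ≠ 0 := fun t ht => by
    rw [Set.uIcc_of_le hx] at ht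
    exact ⟨ht.1, by linarith [ht.1], (Real.log_pos (by linarith [ht.1])).ne'⟩
  have hcont : ContinuousOn (fun t => Real.log t) (Set.uIcc 2 x) :=
    fun t ht => (Real.continuousAt_log (hne t ht).2.1).continuousWithinAt
  have i1 : IntervalIntegrable (fun t => 1 / Real.log t) volume 2 x :=
    (continuousOn_const.div hcont fun t ht => (hne t ht).2.2).intervalIntegrable
  have i2 : IntervalIntegrable (fun t => t / (t * Real.log t ^ 2)) volume 2 x :=
    ((continuousOn_id.div (continuousOn_id.mul (hcont.pow 2)) fun t ht =>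
      mul_ne_zero (hne t ht).2.1 (pow_ne_zero 2 (hne t ht).2.2))).intervalIntegrable
  have hparts : ∫ t in (2 : ℝ)..x, 1 / Real.log t =
      x / Real.log x - 2 / Real.log 2 + ∫ t in (2 : ℝ)..x, t / (t * Real.log t ^ 2) := by
    have hd : ∀ t ∈ Set.uIcc 2 x, HasDerivAt (fun u => u / Real.log u)
        (1 / Real.log t - t / (t * Real.log t ^ 2)) t := fun t ht => by
      obtain ⟨-, ht0, hl⟩ := hne t ht
      refine ((hasDerivAt_id' t).div (Real.hasDerivAt_log ht0) hl).congr_deriv ?_
      field_simp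
    have := intervalIntegral.integral_eq_sub_of_hasDerivAt hd (i1.sub i2)
    rw [intervalIntegral.integral_sub i1 i2] at this
    linarith
  have hint : |(∫ t in (2 : ℝ)..x, T t / (t * Real.log t ^ 2)) -
      σ * ∫ t in (2 : ℝ)..x, t / (t * Real.log t ^ 2)| ≤ 4 * (B * √x) := by
    rw [← intervalIntegral.integral_const_mul, ← intervalIntegral.integral_sub hi (i2.const_mul σ),
      ← Real.norm_eq_abs]
    refine (intervalIntegral.norm_integral_le_of_norm_le hx
      (Eventually.of_forall fun t ht => ?_)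
      ((intervalIntegral.intervalIntegrable_rpow' (r := (-(1 / 2) : ℝ)) (by norm_num)).const_mul
        (2 * B))).trans ?_
    · have ht0 : 0 < t := by linarith [ht.1]
      have hlt : Real.log 2 ≤ Real.log t := Real.log_le_log two_pos ht.1.le
      rw [mul_div, ← sub_div, Real.norm_eq_abs, abs_div,
        abs_of_pos (mul_pos ht0 (by nlinarith) : 0 < t * Real.log t ^ 2),
        div_le_iff₀ (mul_pos ht0 (by nlinarith))]
      refine (hT t ht.1.le ht.2).trans ?_
      have e : t ^ (-(1 / 2) : ℝ) * t = √t := by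
        rw [← Real.rpow_add_one ht0.ne', Real.sqrt_eq_rpow]
        norm_num
      rw [show 2 * B * t ^ (-(1 / 2) : ℝ) * (t * Real.log t ^ 2) =
        B * ((t ^ (-(1 / 2) : ℝ) * t) * Real.log t * (2 * Real.log t)) by ring, e]
      refine mul_le_mul_of_nonneg_left (le_mul_of_one_le_right ?_ (by linarith)) hB
      exact mul_nonneg (Real.sqrt_nonneg t) (by linarith)
    · rw [intervalIntegral.integral_const_mul, integral_rpow (Or.inl (by norm_num))]
      norm_num
      rw [← Real.sqrt_eq_rpow, ← Real.sqrt_eq_rpow]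
      nlinarith [mul_nonneg hB (Real.sqrt_nonneg 2)]
  have hmain : |(T x - σ * x) / Real.log x| ≤ B * √x := by
    rw [abs_div, abs_of_pos (by linarith : 0 < Real.log x), div_le_iff₀ (by linarith)]
    exact (hT x hx le_rfl).trans (le_of_eq (by ring))
  have h3 : σ * (2 / Real.log 2) ≤ 3 * σ := by
    rw [mul_comm 3 σ]
    refine mul_le_mul_of_nonneg_left ?_ hσ
    rw [div_le_iff₀ (by linarith)]
    linarith
  have h30 : 0 ≤ σ * (2 / Real.log 2) := by positivity
  rw [hparts, mul_add, mul_sub]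
  rw [sub_div, ← mul_div] at hmain
  rw [abs_le] at hint hmain ⊢
  constructor <;> linarith

/-- **`π_C` on the hypothesis of Riemann.** -/
theorem exists_countF_sharp : ∃ A, 0 ≤ A ∧ ∀ {K : Type u} {L : Type v} [Field K] [NumberField K]
    [Field L] [NumberField L] [Algebra K L] [IsGalois K L], FieldRH L →
    ∀ C : Set (L ≃ₐ[K] L), (∀ g ∈ C, ∀ x, x * g * x⁻¹ ∈ C) → ∀ x : ℝ, 2 ≤ x →
      |(countIn (someFrobSet K L C) x : ℝ) - share C * ∫ t in (2 : ℝ)..x, 1 / Real.log t| ≤
        A * share C * (√x * (discLog L + finrank ℚ L * Real.log x)) := by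
  obtain ⟨A, hA, h⟩ := exists_thetaF_sharp.{u, v}
  refine ⟨5 * A + 5, by positivity, fun {K L} _ _ _ _ _ _ hRH C hC x hx => ?_⟩
  rcases C.eq_empty_or_nonempty with rfl | hne
  · obtain ⟨e1, -, e3⟩ := FA.EffCheb.trivial_empty (K := K) (L := L) x
    simp [e1, e3]
  have hs := share_nonneg C
  have hn : (1 : ℝ) ≤ finrank ℚ L := Nat.one_le_cast.2 finrank_pos
  have hd := discLog_nonneg L
  obtain ⟨G, hG⟩ : ∃ G, G = discLog L + finrank ℚ L * Real.log x := ⟨_, rfl⟩
  have hl : 0.69 ≤ Real.log x :=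
    le_trans (by linarith [Real.log_two_gt_d9]) (Real.log_le_log two_pos hx)
  have hG0 : 0.69 ≤ G := by rw [hG]; nlinarith
  rw [← hG]
  have h0 : ∀ k, k ≤ 1 → setLog (someFrobSet K L C) k = 0 := fun k hk =>
    Finset.sum_eq_zero fun v hv => absurd (FA.Ext.two_le_absNorm v) (by
      rw [(Finset.mem_filter.1 hv).2]; omega)
  have hθ : ∀ t : ℝ, 2 ≤ t → t ≤ x →
      |partialSum (setLog (someFrobSet K L C)) t - share C * t| ≤
        A * share C * G * (√t * Real.log t) := fun t ht htx => by
    refine (h hRH C hC hne t ht).trans ?_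
    rw [mul_assoc (A * share C) G, mul_comm G]
    refine mul_le_mul_of_nonneg_left (mul_le_mul_of_nonneg_left ?_
      (mul_nonneg (Real.sqrt_nonneg t) (Real.log_nonneg (by linarith)))) (mul_nonneg hA hs)
    rw [hG]
    gcongr
  have h1 := parts_log_le hs hx (by positivity)
    (FA.ChebError.intervalIntegrable_partialSum _ hx) hθ
  rw [← FA.ChebError.sum_inv_log_eq (h0 0 zero_le_one) (h0 1 le_rfl) hx,
    ← FA.ChebError.countIn_eq_sum] at h1
  refine h1.trans ?_
  have h3 : share C * 0.69 ≤ share C * (√x * G) := mul_le_mul_of_nonneg_left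
    (hG0.trans (le_mul_of_one_le_left (by linarith) (Real.one_le_sqrt.2 (by linarith)))) hs
  linarith

end FA.SharpCheb

end
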