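import Fermat.Agent.SharpChebotarev.Moment

/-!
# The least prime of a class, with exactly `log²`

Without a prime `p ∤ d_L`, `p ≤ x`, that is the norm of a prime with Frobenius in `C`, the moment of
`Λ_C` is `O (σ log (2 |d_L|) x^(3/2) + σ log² (2 |d_L|) x)`, so `√x = O (log (2 |d_L|))`.
-/

set_option autoImplicit false
set_option linter.style.haveILetI false
set_option linter.unusedSectionVars false

noncomputable section

universe u v

open NumberField IsDedekindDomain Module Finset Ideal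
open FA.ArtinHooley (FieldRH)
open FA.DedekindPIT (momentSum)
open FA.ChebError (share mangoldtF mangoldtF_nonneg frobShare frobShare_eq_ind)
open FA.EffCheb (goodFrobSet discSet share_pos mangoldtF_le_share goodFrobSet_subset_strict)
open FA.NaturalChebotarev (someFrobSet)
open FA.DedekindExplicit (discScale scale_bounds)
open scoped Real Classical ArithmeticFunction.vonMangoldt

namespace FA.SharpCheb

variable {K : Type u} {L : Type v} [Field K] [NumberField K] [Field L] [NumberField L]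
  [Algebra K L] [IsGalois K L]

/-- A prime whose norm is prime to `d_L` is outside the exceptional set. -/
theorem notMem_discSet {w : HeightOneSpectrum (𝓞 K)} (hp : (absNorm w.asIdeal).Prime)
    (hd : ¬ absNorm w.asIdeal ∣ (discr L).natAbs) : w ∉ discSet K L := fun h => hd <| by
  have h1 := Ideal.absNorm_dvd_absNorm_of_le ((Ideal.span_singleton_le_iff_mem w.asIdeal).2 h)
  rw [Ideal.absNorm_span_singleton, ← eq_intCast (algebraMap ℤ (𝓞 K)), Algebra.norm_algebraMap,
    Int.natAbs_pow] at h1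
  exact hp.dvd_of_dvd_pow h1

/-- A prime `p ∤ d_L` with no prime of norm `p` and Frobenius in `C` carries no `Λ_C`. -/
theorem mangoldtF_eq_zero {C : Set (L ≃ₐ[K] L)} {p : ℕ}
    (hp : p.Prime) (hd : ¬ p ∣ (discr L).natAbs)
    (hno : ∀ w ∈ goodFrobSet C, absNorm w.asIdeal ≠ p) : mangoldtF C p = 0 := by
  refine (tsum_congr fun q => ?_).trans tsum_zero
  obtain ⟨⟨w, k⟩, hq⟩ := q
  obtain ⟨hN, hk⟩ := hp.pow_eq_iff.1 hq
  have hk0 : k = 0 := by simpa using hk
  subst hk0
  have hw : w ∉ discSet K L := notMem_discSet (hN.symm ▸ hp) (hN.symm ▸ hd)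
  have hS : w ∉ someFrobSet K L C := fun h => hno w ⟨h, hw⟩ hN
  show frobShare C w 1 * _ = 0
  rw [frobShare_eq_ind fun h => hS h.1, if_neg hS, zero_mul]

/-- **A small prime of degree one with Frobenius in `C`, outside `d_L m`.** -/
theorem exists_least_prime_avoiding : ∃ A : ℝ, 0 < A ∧ ∀ {K : Type u} {L : Type v} [Field K]
    [NumberField K] [Field L] [NumberField L] [Algebra K L] [IsGalois K L], FieldRH L →
    ∀ C : Set (L ≃ₐ[K] L), (∀ g ∈ C, ∀ x, x * g * x⁻¹ ∈ C) → C.Nonempty →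
      ∀ (R : ℝ) (m : ℕ), discScale L ≤ R → m ≠ 0 → Real.log m ≤ R →
      ∃ w ∈ goodFrobSet C, (absNorm w.asIdeal).Prime ∧
        ¬ absNorm w.asIdeal ∣ (discr L).natAbs ∧ ¬ absNorm w.asIdeal ∣ m ∧
        (absNorm w.asIdeal : ℝ) ≤ A * R ^ 2 := by
  obtain ⟨A₀, hA₀, hmom⟩ := exists_momentF.{u, v}
  obtain ⟨Cp, hpsi⟩ := Chebyshev.psi_sub_theta_le_mul_sqrt
  obtain ⟨c, hc⟩ : ∃ c, c = 2 * (A₀ + 4 * |Cp|) + 10 := ⟨_, rfl⟩
  have hc10 : 10 ≤ c := by rw [hc]; linarith [abs_nonneg Cp]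
  refine ⟨c ^ 2, by positivity, fun {K L} _ _ _ _ _ _ hRH C hC hne S m hSR hm hmS => ?_⟩
  obtain ⟨hS0', hDS', hn4', -⟩ := scale_bounds L
  have hS0 : 0.69 < S := hS0'.trans_le hSR
  have hDS := hDS'.trans hSR
  have hn4 : (finrank ℚ L : ℝ) ≤ 4 * S := hn4'.trans (by linarith)
  obtain ⟨σ, hσ⟩ : ∃ σ, σ = share C := ⟨_, rfl⟩
  have hσ0 : 0 < σ := hσ ▸ share_pos hne
  obtain ⟨x, hx⟩ : ∃ x, x = c ^ 2 * S ^ 2 := ⟨_, rfl⟩
  rw [← hx]
  have hsx : √x = c * S := by
    rw [hx, ← mul_pow, Real.sqrt_sq (mul_nonneg (by linarith) (by linarith))]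
  have hx1 : 1 ≤ x := by
    rw [hx, ← mul_pow]
    exact one_le_pow₀ (by nlinarith)
  by_contra hno
  push Not at hno
  obtain ⟨D, hD⟩ : ∃ D, D = (discr L).natAbs * m := ⟨_, rfl⟩
  have hD0 : D ≠ 0 := hD ▸ mul_ne_zero (Int.natAbs_ne_zero.2 (discr_ne_zero L)) hm
  have hpt : ∀ n ∈ Finset.Icc 1 ⌊x⌋₊, mangoldtF C n * (x - n) ≤
      σ * (4 * S) * x * ((Λ n - if n.Prime then Real.log n else 0) +
        if n ∈ D.primeFactors then Real.log n else 0) := by
    intro n hn
    have hnx : (n : ℝ) ≤ x := (Nat.cast_le.2 (Finset.mem_Icc.1 hn).2).trans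
      (Nat.floor_le (by linarith))
    rw [mul_assoc (σ * (4 * S)) x, mul_comm x, ← mul_assoc]
    refine le_trans (mul_le_mul_of_nonneg_left
      (sub_le_self x (Nat.cast_nonneg n)) (mangoldtF_nonneg C n))
      (mul_le_mul_of_nonneg_right ?_ (by linarith))
    have hle : mangoldtF C n ≤ σ * (4 * S) * Λ n := (mangoldtF_le_share hne n).trans
      (hσ ▸ mul_le_mul_of_nonneg_right (mul_le_mul_of_nonneg_left hn4 (hσ ▸ hσ0.le))
        ArithmeticFunction.vonMangoldt_nonneg)
    have hl : (0 : ℝ) ≤ Real.log n := Real.log_natCast_nonneg n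
    by_cases hp : n.Prime
    · rw [ArithmeticFunction.vonMangoldt_apply_prime hp] at hle ⊢
      rw [if_pos hp, sub_self, zero_add]
      by_cases hd : n ∣ D
      · rwa [if_pos (Nat.mem_primeFactors.2 ⟨hp, hd, hD0⟩)]
      · have hd1 : ¬ n ∣ (discr L).natAbs := fun h => hd (hD ▸ h.mul_right m)
        have hd2 : ¬ n ∣ m := fun h => hd (hD ▸ h.mul_left _)
        rw [mangoldtF_eq_zero hp hd1 fun w hw he => ?_]
        · positivity
        · have := hno w hw (he.symm ▸ hp) (he.symm ▸ hd1) (he.symm ▸ hd2)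
          rw [he] at this
          linarith
    · rw [if_neg hp, sub_zero, if_neg fun h => hp (Nat.prime_of_mem_primeFactors h), add_zero]
      exact hle
  have hup : momentSum (mangoldtF C) x ≤ σ * (4 * S) * x * (|Cp| * √x + 2 * S) := by
    refine (sum_le_sum hpt).trans ?_
    rw [← mul_sum, sum_add_distrib]
    refine mul_le_mul_of_nonneg_left (add_le_add ?_ ?_) (by positivity)
    · refine le_trans (le_of_eq ?_)
        ((hpsi x).trans (mul_le_mul_of_nonneg_right (le_abs_self Cp) (Real.sqrt_nonneg x)))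
      rw [sum_sub_distrib, Chebyshev.psi, Chebyshev.theta, Finset.sum_filter]
      rfl
    · rw [← sum_filter]
      refine le_trans (sum_le_sum_of_subset_of_nonneg (t := D.primeFactors)
        (fun n hn => (Finset.mem_filter.1 hn).2) fun n _ _ => Real.log_natCast_nonneg n) ?_
      rw [← Real.log_prod fun p hp => Nat.cast_ne_zero.2 (Nat.prime_of_mem_primeFactors hp).ne_zero,
        ← Nat.cast_prod]
      refine le_trans (Real.log_le_log (Nat.cast_pos.2 (Finset.prod_pos fun p hp =>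
        (Nat.prime_of_mem_primeFactors hp).pos)) (Nat.cast_le.2
          (Nat.le_of_dvd (Nat.pos_of_ne_zero hD0) (Nat.prod_primeFactors_dvd D)))) ?_
      rw [hD, Nat.cast_mul, Real.log_mul
        (Nat.cast_ne_zero.2 (Int.natAbs_ne_zero.2 (discr_ne_zero L))) (Nat.cast_ne_zero.2 hm)]
      exact (add_le_add (le_trans (le_of_eq rfl) hDS) hmS).trans (le_of_eq (two_mul S).symm)
  have hlow := (abs_le.1 (hmom hRH C hC x hx1)).1
  rw [← hσ, hsx] at hlow
  rw [hsx] at hup
  have hx0 : 0 < σ * x := by positivity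
  have key : c ^ 2 * S ^ 2 / 2 ≤ S ^ 2 * (A₀ * c + 4 * |Cp| * c + 8) := by
    refine le_of_mul_le_mul_left ?_ hx0
    rw [hx] at hlow hup ⊢
    have hb := mul_le_mul_of_nonneg_left hSR
      (show 0 ≤ A₀ * σ * (c ^ 2 * S ^ 2 * (c * S)) by positivity)
    linear_combination hlow + hup + hb
  have h4 : 0 < S ^ 2 := by positivity
  have h5 : c ^ 2 * S ^ 2 / 2 = S ^ 2 * ((A₀ + 4 * |Cp|) * c) + S ^ 2 * (5 * c) := by rw [hc]; ring
  have h6 := mul_le_mul_of_nonneg_left (show (50 : ℝ) ≤ 5 * c by linarith) h4.le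
  linarith

/-- **The theorem of Lagarias, Montgomery and Odlyzko on the hypothesis of Riemann.** -/
theorem exists_least_prime : ∃ A : ℝ, 0 < A ∧ ∀ {K : Type u} {L : Type v} [Field K] [NumberField K]
    [Field L] [NumberField L] [Algebra K L] [IsGalois K L], FieldRH L →
    ∀ C : Set (L ≃ₐ[K] L), (∀ g ∈ C, ∀ x, x * g * x⁻¹ ∈ C) → C.Nonempty →
      ∃ w ∈ goodFrobSet C, (absNorm w.asIdeal).Prime ∧
        ¬ absNorm w.asIdeal ∣ (discr L).natAbs ∧
        (absNorm w.asIdeal : ℝ) ≤ A * discScale L ^ 2 :=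
  let ⟨A, hA, h⟩ := exists_least_prime_avoiding.{u, v}
  ⟨A, hA, fun {_ L} _ _ _ _ _ _ hRH C hC hne =>
    let ⟨w, hw, hp, hd, _, hle⟩ := h hRH C hC hne (discScale L) 1 le_rfl one_ne_zero (by
      rw [Nat.cast_one, Real.log_one]
      exact le_of_lt (lt_trans (by norm_num) (scale_bounds L).1))
    ⟨w, hw, hp, hd, hle⟩⟩

end FA.SharpCheb

end
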