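import Fermat.Agent.SharpChebotarev.Least
import Fermat.Agent.ChebotarevGRH.Applications

/-!
# Rational primes: the least prime of a class and of a progression

On the hypothesis of Riemann for `ℚ(ζ_q)` every class prime to `q` has a prime
`O ((φ q log (2 q)) ²)`.
-/

set_option autoImplicit false
set_option linter.style.haveILetI false

noncomputable section

universe v

open NumberField IsDedekindDomain Module Polynomial
open FA.ArtinHooley (FieldRH)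
open FA.DedekindExplicit (discScale)
open FA.DedekindZeroCount (discLog)
open scoped Real Classical

namespace FA.SharpCheb

/-- **A small rational prime with Frobenius in `C`, outside `m`.** -/
theorem exists_rat_prime_sharp : ∃ A : ℝ, 0 < A ∧
    ∀ {L : Type v} [Field L] [NumberField L] [IsGalois ℚ L], FieldRH L →
      ∀ C : Set (L ≃ₐ[ℚ] L), (∀ g ∈ C, ∀ x, x * g * x⁻¹ ∈ C) → C.Nonempty →
      ∀ (R : ℝ) (m : ℕ), discScale L ≤ R → m ≠ 0 → Real.log m ≤ R →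
        ∃ p : ℕ, p.Prime ∧ ¬ (p : ℤ) ∣ discr L ∧ ¬ p ∣ m ∧ (p : ℝ) ≤ A * R ^ 2 ∧
          ∃ Q : Ideal (𝓞 L), Q.IsMaximal ∧ (p : 𝓞 L) ∈ Q ∧ ∃ τ ∈ C, IsArithFrobAt ℤ τ Q := by
  obtain ⟨A, hA, h⟩ := exists_least_prime_avoiding.{0, v}
  refine ⟨A, hA, fun {L} _ _ _ hRH C hC hne R m hR hm hmR => ?_⟩
  obtain ⟨w, ⟨⟨Q, hQ, hQw, τ, hτC, hτ⟩, -⟩, hp, hd, hwm, hle⟩ := h hRH C hC hne R m hR hm hmR
  obtain ⟨p, hpdef⟩ : ∃ p, p = Ideal.absNorm w.asIdeal := ⟨_, rfl⟩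
  rw [← hpdef] at hp hd hwm hle
  have hpQ : (p : 𝓞 L) ∈ Q := by
    have h1 := Ideal.absNorm_mem w.asIdeal
    rw [← hpdef, ← hQw, Ideal.mem_comap, map_natCast] at h1
    exact h1
  refine ⟨p, hp, fun h => hd (Int.natCast_dvd.1 h), hwm, hle, Q, hQ, hpQ, τ, hτC, fun y => ?_⟩
  have h1 : Nat.card (ℤ ⧸ Q.under ℤ) = Nat.card (𝓞 ℚ ⧸ Q.under (𝓞 ℚ)) := by
    rw [FA.FrobeniusDensity.card_quotient_under hp hQ.ne_top hpQ, hQw, hpdef,
      Ideal.absNorm_apply, Submodule.cardQuot_apply]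
  rw [h1]
  exact hτ y

/-- **The least prime in a progression.** -/
theorem exists_prime_progression_sharp : ∃ A : ℝ, 0 < A ∧
    ∀ (q : ℕ) [NeZero q], FieldRH (CyclotomicField q ℚ) → ∀ a : (ZMod q)ˣ,
      ∃ p : ℕ, p.Prime ∧ (p : ZMod q) = (a : ZMod q) ∧
        (p : ℝ) ≤ A * ((q.totient : ℝ) * Real.log (2 * q)) ^ 2 := by
  obtain ⟨A, hA, h⟩ := exists_rat_prime_sharp.{0}
  refine ⟨A, hA, fun q _ hRH a => ?_⟩
  haveI : NeZero (q : ℚ) := ⟨Nat.cast_ne_zero.mpr (NeZero.ne q)⟩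
  haveI : IsCyclotomicExtension {q} ℚ (CyclotomicField q ℚ) :=
    CyclotomicField.isCyclotomicExtension q ℚ
  haveI : IsGalois ℚ (CyclotomicField q ℚ) := IsCyclotomicExtension.isGalois {q} ℚ _
  have hirr := Polynomial.cyclotomic.irreducible_rat (NeZero.pos q)
  obtain ⟨f, hf⟩ : ∃ f : (CyclotomicField q ℚ ≃ₐ[ℚ] CyclotomicField q ℚ) ≃* (ZMod q)ˣ,
      f = IsCyclotomicExtension.autEquivPow (CyclotomicField q ℚ) hirr := ⟨_, rfl⟩
  have hφ : (1 : ℝ) ≤ q.totient := Nat.one_le_cast.2 (Nat.totient_pos.2 (NeZero.pos q))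
  have hq : (1 : ℝ) ≤ q := Nat.one_le_cast.2 (NeZero.one_le (n := q))
  have hl : Real.log (2 * (q : ℝ)) = Real.log 2 + Real.log q :=
    Real.log_mul two_ne_zero (by positivity)
  have hl2 : 0 ≤ Real.log 2 := Real.log_nonneg one_le_two
  have hS : discScale (CyclotomicField q ℚ) ≤ (q.totient : ℝ) * Real.log (2 * q) := by
    rw [FA.DedekindExplicit.discScale_eq, hl, mul_add]
    refine add_le_add (le_mul_of_one_le_left hl2 hφ) ?_
    rw [discLog, ← Real.log_pow]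
    refine Real.log_le_log (Nat.cast_pos.2 (Int.natAbs_pos.2 (discr_ne_zero _))) ?_
    rw [← Nat.cast_pow, Nat.cast_le, IsCyclotomicExtension.Rat.natAbs_discr q _]
    exact Nat.div_le_self _ _
  have hlq : Real.log q ≤ (q.totient : ℝ) * Real.log (2 * q) :=
    le_trans (by rw [hl]; linarith) (le_mul_of_one_le_left (Real.log_nonneg (by linarith)) hφ)
  obtain ⟨p, hp, -, hpq, hle, Q, hQ, hpQ, τ, hτ, hfrob⟩ := h hRH {σ | f σ = a}
    (fun g (hg : f g = a) x => show f (x * g * x⁻¹) = a by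
      rw [map_mul, map_mul, map_inv, hg, mul_right_comm, mul_inv_cancel, one_mul])
    ⟨f.symm a, f.apply_symm_apply a⟩ _ q hS (NeZero.ne q) hlq
  refine ⟨p, hp, ?_, hle⟩
  have hζ := IsCyclotomicExtension.zeta_spec q ℚ (CyclotomicField q ℚ)
  have hz : IsPrimitiveRoot hζ.toInteger q := hζ.toInteger_isPrimitiveRoot
  haveI := hQ.isPrime
  have hcard := FA.FrobeniusDensity.card_quotient_under hp hQ.ne_top hpQ
  have hqQ : (q : 𝓞 (CyclotomicField q ℚ)) ∉ Q := fun hmem => hQ.ne_top (by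
    obtain ⟨s, t, hst⟩ := (hp.coprime_iff_not_dvd.2 hpq).cast (R := 𝓞 (CyclotomicField q ℚ))
    rw [Ideal.eq_top_iff_one, ← hst]
    exact Q.add_mem (Q.mul_mem_left _ hpQ) (Q.mul_mem_left _ hmem))
  have h1 : τ • hζ.toInteger = hζ.toInteger ^ Nat.card (ℤ ⧸ Q.under ℤ) :=
    hfrob.apply_of_pow_eq_one hz.pow_eq_one hqQ
  have h2 := congrArg (algebraMap (𝓞 (CyclotomicField q ℚ)) (CyclotomicField q ℚ)) h1
  rw [map_pow, hcard] at h2
  have h3 : hζ.autToPow ℚ τ = a := by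
    have : f τ = a := hτ
    rwa [hf] at this
  have h4 : τ (IsCyclotomicExtension.zeta q ℚ (CyclotomicField q ℚ)) =
      IsCyclotomicExtension.zeta q ℚ (CyclotomicField q ℚ) ^ p := h2
  rw [← hζ.autToPow_spec ℚ τ, h3, (hζ.isOfFinOrder (NeZero.ne q)).pow_eq_pow_iff_modEq,
    ← hζ.eq_orderOf] at h4
  rw [← ZMod.natCast_zmod_val (a : ZMod q)]
  exact ((ZMod.natCast_eq_natCast_iff _ _ _).2 h4).symm

end FA.SharpCheb

end
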