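import Fermat.Agent.SharpChebotarev.Shift
import Fermat.Agent.DedekindExplicit.Residues

/-!
# The kernel `x ^ (s + 1) / (s (s + 1))`

Its integral against `H'/H` on `re s = 1` is `O (size x^(3/2))`, and so is its own.
-/

set_option autoImplicit false

noncomputable section

open Complex Filter MeasureTheory Set
open FA.DedekindExplicit (rawKer)
open scoped Real Classical

namespace FA.SharpCheb

theorem differentiableAt_rawKer {x : ℝ} (hx : 0 < x) (s : ℂ) (hs : 0 < s.re) :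
    DifferentiableAt ℂ (rawKer x) s := by
  refine ((differentiableAt_id.add_const 1).const_cpow (Or.inl (ofReal_ne_zero.2 hx.ne'))).div
    (differentiableAt_id.mul (differentiableAt_id.add_const 1)) (mul_ne_zero ?_ ?_) <;>
  · intro h
    have := congrArg Complex.re h
    simp at this
    linarith

theorem one_add_abs_le {u v : ℝ} (hu : 1 / 4 ≤ u) :
    1 + |v| ≤ 5 * ‖(u : ℂ) + v * I‖ ∧ 1 + |v| ≤ 2 * ‖(u : ℂ) + v * I + 1‖ := by
  have a1 := abs_re_le_norm ((u : ℂ) + v * I)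
  have a2 := abs_im_le_norm ((u : ℂ) + v * I)
  have b1 := abs_re_le_norm ((u : ℂ) + v * I + 1)
  have b2 := abs_im_le_norm ((u : ℂ) + v * I + 1)
  simp only [add_re, add_im, ofReal_re, ofReal_im, mul_re, mul_im, I_re, I_im, mul_zero, mul_one,
    sub_self, add_zero, zero_add, one_re, one_im] at a1 a2 b1 b2
  rw [abs_of_nonneg (by linarith)] at a1 b1
  constructor <;> linarith

theorem norm_rawKer_strip {x u v : ℝ} (hx : 0 < x) (hu : 1 / 4 ≤ u) :
    ‖rawKer x ((u : ℂ) + v * I)‖ ≤ 10 * x ^ (u + 1) / (1 + |v|) ^ 2 := by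
  obtain ⟨h1, h2⟩ := one_add_abs_le (v := v) hu
  have hv : 0 < 1 + |v| := by positivity
  have hn1 : 0 < ‖(u : ℂ) + v * I‖ := by linarith
  have hn2 : 0 < ‖(u : ℂ) + v * I + 1‖ := by linarith
  rw [rawKer, norm_div, norm_cpow_eq_rpow_re_of_pos hx, norm_mul,
    div_le_div_iff₀ (by positivity) (by positivity),
    show ((u : ℂ) + v * I + 1).re = u + 1 by simp]
  have := mul_le_mul h1 h2 hv.le (by positivity)
  have hp : 0 ≤ x ^ (u + 1) := Real.rpow_nonneg hx.le _
  nlinarith [mul_le_mul_of_nonneg_left this hp]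

theorem rpow_le_pow_sqrt {x u : ℝ} (hx : 1 ≤ x) (hu : u ≤ 1 / 2) : x ^ (u + 1) ≤ x * √x := by
  rw [Real.sqrt_eq_rpow, ← Real.rpow_one_add' (by linarith) (by norm_num)]
  exact Real.rpow_le_rpow_of_exponent_le hx (by linarith)

/-- **The kernel against a piece.** -/
theorem exists_rawKer_piece : ∃ C, 0 ≤ C ∧ ∀ {H : ℂ → ℂ} {a : ℝ} {n : ℕ}, CriticalPiece H a n →
    ∀ x : ℝ, 1 ≤ x → Integrable (pieceLine H (rawKer x) 1) ∧
      ‖∫ v, pieceLine H (rawKer x) 1 v‖ ≤ C * lineSize a n 0 * (x * √x) := by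
  obtain ⟨Cb, hCb, hline⟩ := exists_pieceLine_bound
  obtain ⟨Ct, hCt, htail⟩ := exists_tail
  refine ⟨2 * π * (10 * Ct) + 10 * Cb, by positivity, fun {H a n} hH x hx => ?_⟩
  have hx0 : 0 < x := by linarith
  have hd := differentiableAt_rawKer hx0
  have hs1 := one_le_lineSize (n := n) hH.one_le 0
  have hP : 0 ≤ x * √x := by positivity
  obtain ⟨hi, -⟩ := hline hH hd 1 (Or.inr rfl) (show 0 ≤ 10 * x ^ ((1 : ℝ) + 1) by positivity)
    fun v => norm_rawKer_strip hx0 (by norm_num)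
  refine ⟨hi, ?_⟩
  have hq := (hline hH hd (1 / 4) (Or.inl rfl) (show 0 ≤ 10 * x ^ ((1 / 4 : ℝ) + 1) by positivity)
    fun v => norm_rawKer_strip hx0 le_rfl).2
  have hZ : ∀ S : Finset ℂ, (∀ ρ ∈ S, 0 < ρ.re ∧ H ρ = 0) →
      ∑ ρ ∈ S, (analyticOrderNatAt H ρ : ℝ) * ‖rawKer x ρ‖ ≤
        10 * Ct * lineSize a n 0 * (x * √x) := fun S hS => by
    refine (Finset.sum_le_sum (g := fun ρ => 10 * (x * √x) *
      ((analyticOrderNatAt H ρ : ℝ) / (1 + |ρ.im|) ^ 2)) fun ρ hρ => ?_).trans ?_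
    · have hre := hH.crit ρ (hS ρ hρ).1 (hS ρ hρ).2
      have hk := norm_rawKer_strip (v := ρ.im) hx0 (show (1 / 4 : ℝ) ≤ ρ.re by linarith)
      rw [Complex.re_add_im] at hk
      refine (mul_le_mul_of_nonneg_left (hk.trans (div_le_div_of_nonneg_right
        (mul_le_mul_of_nonneg_left (rpow_le_pow_sqrt hx hre.le) (by norm_num)) (by positivity)))
        (Nat.cast_nonneg _)).trans (le_of_eq (by ring))
    · rw [← Finset.mul_sum]
      have h := htail hH 0 S fun ρ hρ => ⟨(hS ρ hρ).1, by simp⟩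
      rw [Nat.cast_zero, zero_add, div_one] at h
      exact (mul_le_mul_of_nonneg_left h (by positivity)).trans (le_of_eq (by ring))
  refine (norm_pieceLine_one_le hH hd (show 0 ≤ 10 * x ^ ((1 : ℝ) + 1) by positivity)
    (fun u v hu hu1 => (norm_rawKer_strip hx0 hu).trans (div_le_div_of_nonneg_right
      (mul_le_mul_of_nonneg_left (Real.rpow_le_rpow_of_exponent_le hx (by linarith)) (by norm_num))
      (by positivity))) hZ).trans ?_
  have h4 := mul_le_mul_of_nonneg_left (rpow_le_pow_sqrt hx (show (1 / 4 : ℝ) ≤ 1 / 2 by norm_num))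
    (show 0 ≤ 10 * Cb * lineSize a n 0 by positivity)
  linarith

/-- **The kernel on `re s = 1` may be moved to `re s = 1/4`.** -/
theorem rawKer_line_shift {x : ℝ} (hx : 1 ≤ x) : (∀ c : ℝ, 1 / 4 ≤ c → c ≤ 2 →
      Integrable fun v : ℝ => rawKer x ((c : ℂ) + v * I)) ∧
    (∫ v : ℝ, rawKer x (((1 : ℝ) : ℂ) + v * I)) =
      ∫ v : ℝ, rawKer x (((1 / 4 : ℝ) : ℂ) + v * I) := by
  have hx0 : 0 < x := by linarith
  obtain ⟨G, hGdef⟩ : ∃ G : ℂ → ℂ, G = fun s => 1 / (s * (s + 1)) := ⟨_, rfl⟩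
  have hd : ∀ c : ℝ, 0 < c → ∀ w : ℂ, c ≤ w.re → DifferentiableAt ℂ G w := fun c hc w hw => by
    rw [hGdef]
    refine (differentiableAt_const _).div
      (differentiableAt_id.mul (differentiableAt_id.add_const 1)) (mul_ne_zero ?_ ?_) <;>
    · intro h
      have := congrArg Complex.re h
      simp at this
      linarith
  have hG : ∀ c : ℝ, 1 / 4 ≤ c → ∀ u v : ℝ, c ≤ u → u ≤ 2 →
      ‖G ((u : ℂ) + v * I)‖ ≤ 10 * (1 + |v|) ^ ((0 : ℝ) - 2) := fun c hc u v hu _ => by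
    obtain ⟨h1, h2⟩ := one_add_abs_le (v := v) (hc.trans hu)
    have hv : 0 < 1 + |v| := by positivity
    rw [zero_sub, Real.rpow_neg hv.le, Real.rpow_two, ← div_eq_mul_inv, hGdef, norm_div, norm_one,
      norm_mul, div_le_div_iff₀ (by nlinarith) (by positivity), one_mul]
    exact (sq (1 + |v|)).le.trans ((mul_le_mul h1 h2 hv.le (by positivity)).trans
      (le_of_eq (by ring)))
  have e : ∀ c : ℝ, (fun v : ℝ => rawKer x ((c : ℂ) + v * I)) =
      fun v : ℝ => (x : ℂ) ^ ((c : ℂ) + (v : ℂ) * I + 1) * G ((c : ℂ) + (v : ℂ) * I) := fun c => by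
    funext v
    rw [rawKer, hGdef, mul_one_div]
  have s1 := FA.PiltzDivisor.lineInt_shift (hd 1 one_pos) (by norm_num)
    (hG 1 (by norm_num)) hx (by norm_num)
  have s2 := FA.PiltzDivisor.lineInt_shift (hd (1 / 4) (by norm_num)) (by norm_num)
    (hG (1 / 4) le_rfl) hx (by norm_num)
  have heq : (∫ v : ℝ, rawKer x (((1 : ℝ) : ℂ) + v * I)) =
      ∫ v : ℝ, rawKer x (((1 / 4 : ℝ) : ℂ) + v * I) := by
    have h := s1.symm.trans s2
    simp only [FA.PiltzDivisor.lineInt] at h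
    rw [e, e]
    exact smul_right_injective ℂ (show (1 / (2 * π) : ℝ) ≠ 0 by positivity) h
  exact ⟨fun c hc hc2 => e c ▸ FA.PiltzDivisor.integrable_line (hd c (by linarith)) (by norm_num)
    (hG c hc) hx0 le_rfl hc2, heq⟩

/-- **The kernel alone.** -/
theorem exists_rawKer_line : ∃ C, 0 ≤ C ∧ ∀ x : ℝ, 1 ≤ x →
    Integrable (fun v : ℝ => rawKer x (((1 : ℝ) : ℂ) + v * I)) ∧
      ‖∫ v : ℝ, rawKer x (((1 : ℝ) : ℂ) + v * I)‖ ≤ C * (x * √x) := by
  obtain ⟨J, hJ⟩ : ∃ J, J = ∫ v : ℝ, (1 + |v|) ^ (-2 : ℝ) := ⟨_, rfl⟩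
  refine ⟨10 * J, mul_nonneg (by norm_num) (hJ ▸ integral_nonneg fun v => by positivity),
    fun x hx => ?_⟩
  have hx0 : 0 < x := by linarith
  obtain ⟨hi, heq⟩ := rawKer_line_shift hx
  refine ⟨hi 1 (by norm_num) (by norm_num), ?_⟩
  rw [heq]
  refine (norm_integral_le_of_norm_le
    ((FA.PiltzDivisor.integrable_one_add_abs_rpow (r := -2) (by norm_num)).const_mul
      (10 * (x * √x)))
    (Eventually.of_forall fun v => (norm_rawKer_strip hx0 le_rfl).trans ?_)).trans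
      (le_of_eq (by rw [integral_const_mul, ← hJ]; ring))
  rw [Real.rpow_neg (by positivity), Real.rpow_two, ← div_eq_mul_inv]
  exact div_le_div_of_nonneg_right (mul_le_mul_of_nonneg_left
    (rpow_le_pow_sqrt hx (by norm_num)) (by norm_num)) (by positivity)

end FA.SharpCheb

end
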