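import Fermat.Agent.ArtinHooley.Hypothesis
import Fermat.Agent.RiemannMangoldt.Factor

/-!
# Entire functions with their zeros on the critical line, locally

If `H` is bounded by `exp (O (size t))` in a strip, `-log ‖H (2 + it)‖ ≤ O (size t)` and its zeros
in `re s > 0` have `re = 1/2`, it has `O (size t)` zeros with `|γ - t| ≤ 1`, and on
`1/4 ≤ re s ≤ 2` its logarithmic derivative is `O (size t / δ)` at distance `δ` from them.
-/

set_option autoImplicit false

noncomputable section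

open Complex Metric Set
open FA.DedekindZF (growA)
open scoped Real Classical

namespace FA.SharpCheb

/-- `a + n log (|t| + 3)`. -/
def lineSize (a : ℝ) (n : ℕ) (t : ℝ) : ℝ := a + n * Real.log (|t| + 3)

/-- An entire function bounded by its size, with its zeros on the line. -/
structure CriticalPiece (H : ℂ → ℂ) (a : ℝ) (n : ℕ) : Prop where
  diff : Differentiable ℂ H
  one_le : 1 ≤ a
  upper : ∀ z : ℂ, z.re ∈ Icc (-4 : ℝ) 5 → ‖H z‖ ≤ Real.exp (growA * lineSize a n z.im)
  lower : ∀ t : ℝ, -Real.log ‖H (((2 : ℝ) : ℂ) + t * I)‖ ≤ 11 * lineSize a n t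
  crit : ∀ z : ℂ, 0 < z.re → H z = 0 → z.re = 1 / 2

variable {H : ℂ → ℂ} {a : ℝ} {n : ℕ}

theorem one_le_lineSize (ha : 1 ≤ a) (t : ℝ) : 1 ≤ lineSize a n t := by
  have : 0 ≤ (n : ℝ) * Real.log (|t| + 3) :=
    mul_nonneg (Nat.cast_nonneg _) (Real.log_nonneg (by linarith [abs_nonneg t]))
  rw [lineSize]
  linarith

theorem lineSize_mono {s t : ℝ} (h : |s| ≤ |t|) : lineSize a n s ≤ lineSize a n t := by
  rw [lineSize, lineSize]
  gcongr

theorem lineSize_abs (t : ℝ) : lineSize a n |t| = lineSize a n t := by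
  rw [lineSize, lineSize, abs_abs]

theorem lineSize_near (ha : 1 ≤ a) {t t' : ℝ} (h : |t'| ≤ |t| + 3) :
    lineSize a n t' ≤ 2 * lineSize a n t := by
  have hle : Real.log (|t'| + 3) ≤ 2 * Real.log (|t| + 3) := by
    rw [show 2 * Real.log (|t| + 3) = Real.log ((|t| + 3) ^ 2) by rw [Real.log_pow]; norm_num]
    exact Real.log_le_log (by positivity) (by nlinarith [abs_nonneg t])
  have h1 := mul_le_mul_of_nonneg_left hle (Nat.cast_nonneg n : (0 : ℝ) ≤ _)
  rw [lineSize, lineSize]
  linarith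

theorem lineSize_le_rpow (ha : 1 ≤ a) (t : ℝ) :
    lineSize a n t ≤ 12 * lineSize a n 0 * (1 + |t|) ^ (1 / 4 : ℝ) := by
  have hp : 1 ≤ (1 + |t|) ^ (1 / 4 : ℝ) :=
    Real.one_le_rpow (by linarith [abs_nonneg t]) (by norm_num)
  have h1 : Real.log (|t| + 3) ≤ 12 * (1 + |t|) ^ (1 / 4 : ℝ) := by
    refine (Real.log_le_rpow_div (by positivity) (show (0 : ℝ) < 1 / 4 by norm_num)).trans ?_
    rw [div_le_iff₀ (by norm_num)]
    refine (Real.rpow_le_rpow (by positivity) (show |t| + 3 ≤ 3 * (1 + |t|) by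
      linarith [abs_nonneg t]) (by norm_num)).trans ?_
    rw [Real.mul_rpow (by norm_num) (by positivity),
      show 12 * (1 + |t|) ^ (1 / 4 : ℝ) * (1 / 4) = 3 * (1 + |t|) ^ (1 / 4 : ℝ) by ring]
    exact mul_le_mul_of_nonneg_right (Real.rpow_le_self_of_one_le (by norm_num) (by norm_num))
      (by positivity)
  have h3 : (1 : ℝ) ≤ Real.log (|(0 : ℝ)| + 3) := FA.DedekindZF.one_le_log 0
  have hn : (0 : ℝ) ≤ n := Nat.cast_nonneg n
  have h4 : a + n ≤ lineSize a n 0 := by
    rw [lineSize]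
    linarith [le_mul_of_one_le_right hn h3]
  have h5 : a ≤ 12 * a * (1 + |t|) ^ (1 / 4 : ℝ) :=
    le_trans (by linarith) (le_mul_of_one_le_right (by linarith) hp)
  rw [lineSize]
  refine le_trans ?_ (mul_le_mul_of_nonneg_right (mul_le_mul_of_nonneg_left h4 (by norm_num))
    (zero_le_one.trans hp))
  linarith [mul_le_mul_of_nonneg_left h1 hn]

theorem CriticalPiece.two_ne (hH : CriticalPiece H a n) (t : ℝ) :
    H (((2 : ℝ) : ℂ) + t * I) ≠ 0 := fun h => by
  have := hH.crit _ (by simp) h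
  norm_num at this

theorem CriticalPiece.order_ne_top (hH : CriticalPiece H a n) (z : ℂ) :
    analyticOrderAt H z ≠ ⊤ := fun h =>
  hH.two_ne 0 ((analyticOnNhd_univ_iff_differentiable.2
    hH.diff).eqOn_zero_of_preconnected_of_eventuallyEq_zero isPreconnected_univ (mem_univ z)
    (analyticOrderAt_eq_top.1 h) (mem_univ _))

theorem CriticalPiece.mult_eq_zero (hH : CriticalPiece H a n) {z : ℂ} (hz : 0 < z.re)
    (hne : z.re ≠ 1 / 2) : analyticOrderNatAt H z = 0 := by
  by_contra h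
  exact hne (hH.crit z hz (apply_eq_zero_of_analyticOrderNatAt_ne_zero h))

/-- **Few zeros near a height, and the logarithmic derivative away from them.** -/
theorem exists_local : ∃ C, 0 ≤ C ∧ ∀ {H : ℂ → ℂ} {a : ℝ} {n : ℕ}, CriticalPiece H a n → ∀ t : ℝ,
    (∀ S : Finset ℂ, (∀ ρ ∈ S, 0 < ρ.re ∧ |ρ.im - t| ≤ 1) →
      ∑ ρ ∈ S, (analyticOrderNatAt H ρ : ℝ) ≤ C * lineSize a n t) ∧
    ∀ u δ : ℝ, 1 / 4 ≤ u → u ≤ 2 → 0 < δ → δ ≤ 1 →
      (∀ ρ, 0 < ρ.re → H ρ = 0 → δ ≤ ‖((u : ℂ) + t * I) - ρ‖) →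
      ‖deriv H ((u : ℂ) + t * I) / H ((u : ℂ) + t * I)‖ ≤ C * lineSize a n t / δ := by
  obtain ⟨K, hK, hexp⟩ := FA.RiemannMangoldt.exists_logDeriv_expansion (r₁ := (37 : ℝ) / 20)
    (r := 19 / 10) (r₂ := 7 / 4) (by norm_num) (by norm_num) (by norm_num)
  have hgrow : 0 ≤ growA := FA.ArtinHooley.growA_nonneg
  refine ⟨2 * (K * (2 * growA + 12)), by positivity, fun {H a n} hH t => ?_⟩
  have h1 := one_le_lineSize (n := n) hH.one_le t
  obtain ⟨s₀, hs₀⟩ : ∃ s₀ : ℂ, s₀ = ((2 : ℝ) : ℂ) + t * I := ⟨_, rfl⟩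
  have hre₀ : s₀.re = 2 := by simp [hs₀]
  have him₀ : s₀.im = t := by simp [hs₀]
  obtain ⟨f, hf⟩ : ∃ f : ℂ → ℂ, f = fun z => H (s₀ + z) := ⟨_, rfl⟩
  have hfd : Differentiable ℂ f := hf ▸ hH.diff.comp (differentiable_id.const_add s₀)
  have hf0 : f 0 ≠ 0 := by
    simp only [hf, add_zero, hs₀]
    exact hH.two_ne t
  obtain ⟨B, hB⟩ : ∃ B, B = Real.exp ((2 * growA + 11) * lineSize a n t) := ⟨_, rfl⟩
  have hB1 : 1 ≤ B := hB ▸ Real.one_le_exp (by positivity)
  obtain ⟨Z, hZ, hcard, hord, hlog⟩ := hexp univ f B isOpen_univ (subset_univ _)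
    hfd.differentiableOn hf0 hB1 fun z hz => by
      rw [mem_sphere_zero_iff_norm] at hz
      have b1 := abs_le.1 ((abs_re_le_norm z).trans hz.le)
      have b2 := (abs_im_le_norm z).trans hz.le
      have hlow : Real.exp (-(11 * lineSize a n t)) ≤ ‖f 0‖ := by
        rw [← Real.le_log_iff_exp_le (norm_pos_iff.2 hf0)]
        simp only [hf, add_zero, hs₀]
        linarith [hH.lower t]
      calc ‖f z‖ ≤ Real.exp (growA * lineSize a n (s₀ + z).im) := by
            rw [hf]
            exact hH.upper _ ⟨by rw [add_re, hre₀]; linarith, by rw [add_re, hre₀]; linarith⟩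
        _ ≤ Real.exp (growA * (2 * lineSize a n t)) := by
            refine Real.exp_le_exp.2 (mul_le_mul_of_nonneg_left (lineSize_near hH.one_le ?_) hgrow)
            rw [add_im, him₀]
            linarith [abs_add_le t z.im]
        _ = B * Real.exp (-(11 * lineSize a n t)) := by
            rw [hB, ← Real.exp_add]
            ring_nf
        _ ≤ _ := mul_le_mul_of_nonneg_left hlow (by linarith)
  have hKE : K * (Real.log B + 1) ≤ K * (2 * growA + 12) * lineSize a n t := by
    rw [hB, Real.log_exp, mul_assoc]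
    exact mul_le_mul_of_nonneg_left (by linarith) hK
  have hKE0 : 0 ≤ K * (2 * growA + 12) * lineSize a n t := by positivity
  have hcnt : ∀ ρ : ℂ, ‖ρ - s₀‖ ≤ 37 / 20 → analyticOrderNatAt H ρ = Z.count (ρ - s₀) := by
    intro ρ hρ
    rw [← hord _ (mem_closedBall_zero_iff.2 hρ), hf]
    have h' := analyticOrderAt_comp_of_deriv_ne_zero (f := H) (g := fun z : ℂ => s₀ + z)
      (z₀ := ρ - s₀) (by fun_prop) (by simp)
    rw [show s₀ + (ρ - s₀) = ρ by ring] at h'
    exact (congrArg ENat.toNat h').symm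
  refine ⟨fun S hS => ?_, fun u δ hu hu2 hδ hδ1 hgap => ?_⟩
  · calc ∑ ρ ∈ S, (analyticOrderNatAt H ρ : ℝ) ≤ ∑ ρ ∈ S, (Z.count (ρ - s₀) : ℝ) := by
          refine Finset.sum_le_sum fun ρ hρ => ?_
          obtain ⟨h0, hd⟩ := hS ρ hρ
          rcases eq_or_ne ρ.re (1 / 2) with hre | hre
          · refine le_of_eq (congrArg _ (hcnt ρ ?_))
            rw [Complex.norm_eq_sqrt_sq_add_sq, Real.sqrt_le_left (by norm_num), sub_re, sub_im,
              hre, hre₀, him₀, ← sq_abs (ρ.im - t)]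
            nlinarith [abs_nonneg (ρ.im - t)]
          · rw [hH.mult_eq_zero h0 hre, Nat.cast_zero]
            exact Nat.cast_nonneg _
      _ = ((∑ z ∈ S.image fun ρ => ρ - s₀, Z.count z : ℕ) : ℝ) := by
          rw [Finset.sum_image fun x _ y _ h => sub_left_inj.1 h, Nat.cast_sum]
      _ ≤ (Multiset.card Z : ℝ) := by
          refine Nat.cast_le.2 ?_
          rw [← Multiset.toFinset_sum_count_eq]
          refine le_trans (le_of_eq ?_)
            (Finset.sum_le_sum_of_subset (s := (S.image fun ρ => ρ - s₀) ∩ Z.toFinset)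
              Finset.inter_subset_right)
          refine (Finset.sum_subset Finset.inter_subset_left fun z hz hn => ?_).symm
          exact Multiset.count_eq_zero.2 fun h =>
            hn (Finset.mem_inter.2 ⟨hz, Multiset.mem_toFinset.2 h⟩)
      _ ≤ _ := (hcard.trans hKE).trans (by linarith)
  · obtain ⟨s, hs⟩ : ∃ s : ℂ, s = (u : ℂ) + t * I := ⟨_, rfl⟩
    rw [← hs] at hgap ⊢
    have hd0 : ‖s - s₀‖ ≤ 7 / 4 := by
      rw [hs, hs₀, show (u : ℂ) + t * I - (((2 : ℝ) : ℂ) + t * I) = ((u - 2 : ℝ) : ℂ) by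
        push_cast; ring, Complex.norm_real, Real.norm_eq_abs, abs_le]
      constructor <;> linarith
    have hne : H s ≠ 0 := fun h => by
      have := hgap s (by simp [hs]; linarith) h
      rw [sub_self, norm_zero] at this
      linarith
    have h2 := hlog (s - s₀) (mem_closedBall_zero_iff.2 hd0) (by simpa [hf] using hne)
    simp only [hf, deriv_comp_const_add, add_sub_cancel] at h2
    have hsum : ‖(Z.map fun ρ => (s - s₀ - ρ)⁻¹).sum‖ ≤ Multiset.card Z * δ⁻¹ := by
      refine (norm_multiset_sum_le _).trans ?_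
      rw [Multiset.map_map, ← nsmul_eq_mul]
      refine le_trans (Multiset.sum_le_card_nsmul _ δ⁻¹ fun x hx => ?_) (le_of_eq ?_)
      · obtain ⟨ρ, hρ, rfl⟩ := Multiset.mem_map.1 hx
        have hρn := mem_closedBall_zero_iff.1 (hZ ρ hρ)
        have hz : H (s₀ + ρ) = 0 := by
          by_contra h
          have := Multiset.count_pos.2 hρ
          rw [← hord ρ (hZ ρ hρ)] at this
          exact this.ne' (by_contra fun h' => h (by
            have := apply_eq_zero_of_analyticOrderNatAt_ne_zero h'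
            simpa [hf] using this))
        have hpos : 0 < (s₀ + ρ).re := by
          rw [add_re, hre₀]
          linarith [(abs_le.1 ((abs_re_le_norm ρ).trans hρn)).1]
        simp only [Function.comp_apply, norm_inv]
        refine inv_anti₀ hδ ((hgap _ hpos hz).trans (le_of_eq ?_))
        rw [show s - (s₀ + ρ) = s - s₀ - ρ by ring]
      · rw [Multiset.card_map]
    have h3 := (norm_le_norm_add_norm_sub' _ _).trans (add_le_add hsum (h2.trans hKE))
    refine h3.trans ?_
    rw [show 2 * (K * (2 * growA + 12)) * lineSize a n t / δ =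
      K * (2 * growA + 12) * lineSize a n t / δ + K * (2 * growA + 12) * lineSize a n t / δ by ring,
      ← div_eq_mul_inv]
    exact add_le_add (div_le_div_of_nonneg_right (hcard.trans hKE) hδ.le) (le_div_self hKE0 hδ hδ1)

end FA.SharpCheb

end
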