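import Fermat.Agent.SharpChebotarev.Local
import Fermat.Agent.ChebotarevGRH.Pieces

/-!
# The cyclic pieces are critical

On the Riemann hypothesis for `ζ_L` the zeros in `re s > 0` of every cleared abelian L-series lie
on the line, and the sizes of the pieces of a set `C` sum to `2 σ height`.
-/

set_option autoImplicit false
set_option linter.style.haveILetI false
set_option linter.unusedSectionVars false

noncomputable section

universe v

open NumberField Module Finset Complex
open FA.DedekindZF (height)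
open FA.EffCheb (charSize one_le_charSize clearedL pairs pairW cycL cyc_comm liftChar
  liftChar_injective)
open FA.ChebError (CycDual share)
open FA.ArtinHooley (FieldRH)
open FA.ArtinFE (linA)
open scoped Real Classical

namespace FA.SharpCheb

variable {M : Type*} {L : Type v} [Field M] [NumberField M] [Field L] [NumberField L] [Algebra M L]
  [IsGalois M L] (hcomm : ∀ g h : L ≃ₐ[M] L, g * h = h * g)

theorem lineSize_charSize (ψ : (L ≃ₐ[M] L) →* ℂˣ) (t : ℝ) :
    lineSize (1 + Real.log (linA ψ : ℝ)) (finrank ℚ M) t = charSize ψ t := rfl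

include hcomm in
/-- **A cleared abelian L-series is critical on the hypothesis for `ζ_L`.** -/
theorem criticalPiece_clearedL (hRH : FieldRH L) (ψ : (L ≃ₐ[M] L) →* ℂˣ) :
    CriticalPiece (clearedL hcomm ψ) (1 + Real.log (linA ψ : ℝ)) (finrank ℚ M) := by
  have h := FA.ChebGRH.isClearedFine_clearedL hcomm ψ
  obtain ⟨E, hE, hEL⟩ := FA.EffCheb.exists_cleared_zeta hcomm
  refine ⟨h.diff, le_add_of_nonneg_right (Real.log_natCast_nonneg _), h.upper, fun t => ?_,
    fun z hz hz0 => ?_⟩
  · have := h.lower (((2 : ℝ) : ℂ) + t * I) (by simp) (by norm_num)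
    simp only [add_re, add_im, ofReal_re, ofReal_im, mul_re, mul_im, I_re, I_im, mul_zero,
      mul_one, sub_self, add_zero, zero_add, show (2 : ℝ) - 1 = 1 by norm_num, div_one] at this
    exact this
  · have hEz : E z = 0 := by
      by_contra hne
      exact FA.EffCheb.clearedL_ne_zero hcomm hE hEL ψ hne hz0
    rcases lt_or_ge z.re 1 with h1 | h1
    · exact hRH E hE hEL z hEz hz h1
    · exact absurd hEz (FA.ArtinHooley.ne_zero_of_half_lt hE hEL hRH (by linarith))

variable {K : Type*} [Field K] [NumberField K] [Algebra K L] [IsGalois K L]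

/-- **Bounded by their sizes, the pieces of `C` sum to `2 σ height`.** -/
theorem norm_sum_pairs_le (C : Set (L ≃ₐ[K] L)) {F : (Σ g : L ≃ₐ[K] L, CycDual g) → ℂ} {A t : ℝ}
    (hA : 0 ≤ A) (hF : ∀ p, ‖F p‖ ≤ A * charSize (liftChar p.1 p.2) t) :
    ‖∑ p ∈ pairs C, pairW p * F p‖ ≤ share C * (2 * A * height L t) := by
  rw [pairs, Finset.sum_sigma, FA.EffCheb.share_eq, mul_assoc, ← nsmul_eq_mul, ← Finset.sum_const]
  refine (norm_sum_le _ _).trans (Finset.sum_le_sum fun g _ => (norm_sum_le _ _).trans ?_)
  haveI := FA.ArtinFE.finite_linear (cyc_comm g)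
  letI := Fintype.ofFinite ((L ≃ₐ[IntermediateField.fixedField (Subgroup.zpowers g)] L) →* ℂˣ)
  simp only [norm_mul, FA.EffCheb.norm_pairW, ← Finset.mul_sum]
  refine mul_le_mul_of_nonneg_left ?_ (by positivity)
  calc ∑ ψ : CycDual g, ‖F ⟨g, ψ⟩‖
      ≤ ∑ ψ : CycDual g, A * charSize (liftChar g ψ) t := Finset.sum_le_sum fun ψ _ => hF ⟨g, ψ⟩
    _ = A * ∑ χ ∈ univ.image (liftChar g), charSize χ t := by
        rw [Finset.mul_sum, Finset.sum_image fun a _ b _ e => liftChar_injective g e]
    _ ≤ A * ∑ χ : (L ≃ₐ[IntermediateField.fixedField (Subgroup.zpowers g)] L) →* ℂˣ,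
          charSize χ t := by
        refine mul_le_mul_of_nonneg_left (Finset.sum_le_sum_of_subset_of_nonneg
          (Finset.subset_univ _) fun χ _ _ => zero_le_one.trans (one_le_charSize χ _)) hA
    _ ≤ A * (2 * height L t) :=
        mul_le_mul_of_nonneg_left (FA.ChebGRH.sum_charSize_le (cyc_comm g) _) hA
    _ = _ := by ring

end FA.SharpCheb

end
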