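import Fermat.Agent.SharpChebotarev.Kernel
import Fermat.Agent.SharpChebotarev.Pieces
import Fermat.Agent.ChebotarevGRH.Main
import Fermat.Agent.DedekindExplicit.Least

/-!
# The moment of `Λ_C` on the hypothesis of Riemann

`∑_{n ≤ x} Λ_C n (x - n) = σ x² / 2 + O (σ log (2 |d_L|) x^(3/2))`.
-/

set_option autoImplicit false
set_option linter.style.haveILetI false
set_option linter.unusedSectionVars false

noncomputable section

universe u v

open NumberField IsDedekindDomain Module Finset Complex MeasureTheory Filter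
open FA.ArtinHooley (FieldRH derivC derivC_nonneg fieldSize one_le_fieldSize height_le_rpow
  momentSum_eq_lineInt restKer)
open FA.DedekindPIT (momentSum)
open FA.ChebError (share share_nonneg mangoldtF mangoldtF_nonneg)
open FA.ChebGRH (restSum LSeries_mangoldtF_eq differentiableAt_restSum norm_restSum_le)
open FA.EffCheb (pairs pairW cycL cyc_comm liftChar charSize)
open FA.DedekindExplicit (rawKer discScale scale_bounds)
open FA.PiltzDivisor (lineInt)
open scoped Real Classical

namespace FA.SharpCheb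

/-- **The integral on `re s = 1`.** -/
theorem momentF_eq {K : Type u} {L : Type v} [Field K] [NumberField K] [Field L] [NumberField L]
    [Algebra K L] [IsGalois K L] (hRH : FieldRH L) {C : Set (L ≃ₐ[K] L)}
    (hC : ∀ g ∈ C, ∀ x, x * g * x⁻¹ ∈ C) {x : ℝ} (hx : 1 < x) :
    (momentSum (mangoldtF C) x : ℂ) = ((share C * ((x ^ 2 - 1) / 2) : ℝ) : ℂ) +
      (1 / (2 * π)) • (-(∑ p ∈ pairs C, pairW p * ∫ v, pieceLine (cycL p) (rawKer x) 1 v) -
        (share C : ℂ) * ∫ v : ℝ, rawKer x (((1 : ℝ) : ℂ) + v * I)) := by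
  obtain ⟨E, hE, hEL, -⟩ := FA.ZetaDivisibility.exists_zeta_cleared L
  have h := momentSum_eq_lineInt (f := mangoldtF C) (σ := share C) (D := restSum C)
    (B := 6 * derivC * (share C * fieldSize L))
    (fun s hs' => LSeries_mangoldtF_eq hC hs')
    (fun s hs' => differentiableAt_restSum hE hEL hRH C hs')
    (fun δ hδ hδ4 u v hu hu2 => by
      refine (norm_restSum_le hE hEL hRH C hδ hδ4 (s := (u : ℂ) + v * I) (by simpa using hu)
        (by simpa using hu2)).trans ?_
      rw [show ((u : ℂ) + v * I).im = v by simp]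
      refine (mul_le_mul_of_nonneg_left (div_le_div_of_nonneg_right (mul_le_mul_of_nonneg_left
        (height_le_rpow (K := L) hδ (by linarith) v)
          (mul_nonneg zero_le_two derivC_nonneg)) (by positivity)) (share_nonneg C)).trans
        (le_of_eq ?_)
      field_simp
      ring)
    (share_nonneg C) (δ := 1 / 4) (by norm_num) le_rfl hx
  rw [h, show (1 / 2 + 2 * (1 / 4) : ℝ) = 1 by norm_num, lineInt]
  obtain ⟨Ck, -, hker⟩ := exists_rawKer_piece
  obtain ⟨Cl, -, hlin⟩ := exists_rawKer_line
  have hi : ∀ p ∈ pairs C, Integrable fun v => pairW p * pieceLine (cycL p) (rawKer x) 1 v :=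
    fun p _ => ((hker (criticalPiece_clearedL (cyc_comm p.1) hRH (liftChar p.1 p.2)) x hx.le).1
      ).const_mul _
  congr 2
  rw [← sum_congr rfl fun p _ => integral_const_mul (pairW p) _, ← integral_finsetSum _ hi,
    ← integral_neg, ← integral_const_mul, ← integral_sub (integrable_finsetSum _ hi).fun_neg
      ((hlin x hx.le).1.const_mul _)]
  refine integral_congr_ae (Eventually.of_forall fun v => ?_)
  simp only [restKer, restSum, rawKer, pieceLine]
  rw [← Finset.sum_neg_distrib, sub_div, Finset.sum_div, mul_sub, Finset.mul_sum]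
  congr 1
  · exact Finset.sum_congr rfl fun p _ => by ring
  · ring

/-- **The moment of `Λ_C`.** -/
theorem exists_momentF : ∃ A, 0 ≤ A ∧ ∀ {K : Type u} {L : Type v} [Field K] [NumberField K]
    [Field L] [NumberField L] [Algebra K L] [IsGalois K L], FieldRH L →
    ∀ C : Set (L ≃ₐ[K] L), (∀ g ∈ C, ∀ x, x * g * x⁻¹ ∈ C) → ∀ x : ℝ, 1 ≤ x →
      |momentSum (mangoldtF C) x - share C * x ^ 2 / 2| ≤
        A * share C * discScale L * (x * √x) := by
  obtain ⟨Ck, hCk, hker⟩ := exists_rawKer_piece
  obtain ⟨Cl, hCl, hlin⟩ := exists_rawKer_line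
  refine ⟨22 * Ck + 2 * Cl + 1, by positivity, fun {K L} _ _ _ _ _ _ hRH C hC x hx => ?_⟩
  have hs := share_nonneg C
  obtain ⟨hS0, -, -, hH⟩ := scale_bounds L
  have hP : 1 ≤ x * √x := one_le_mul_of_one_le_of_one_le hx (Real.one_le_sqrt.2 hx)
  have hSP : 0.69 ≤ discScale L * (x * √x) :=
    hS0.le.trans (le_mul_of_one_le_right (by linarith) hP)
  have hhalf : share C * (1 / 2) ≤ share C * discScale L * (x * √x) := by
    rw [mul_assoc]
    exact mul_le_mul_of_nonneg_left (le_trans (by norm_num) hSP) hs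
  have hA0 : 0 ≤ share C * discScale L * (x * √x) := le_trans (by positivity) hhalf
  rcases eq_or_lt_of_le hx with rfl | hx1
  · have h1 : momentSum (mangoldtF C) (1 : ℝ) = 0 := by simp [momentSum]
    rw [h1, zero_sub, abs_neg, one_pow, abs_of_nonneg (by positivity)]
    nlinarith [mul_nonneg hCk hA0, mul_nonneg hCl hA0]
  rw [← Real.norm_eq_abs, ← Complex.norm_real, ofReal_sub, momentF_eq hRH hC hx1]
  rw [show ((share C * ((x ^ 2 - 1) / 2) : ℝ) : ℂ) = ((share C * x ^ 2 / 2 : ℝ) : ℂ) -
    ((share C * (1 / 2) : ℝ) : ℂ) by push_cast; ring, add_sub_right_comm, sub_sub_cancel_left]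
  refine (norm_add_le _ _).trans ?_
  rw [norm_neg, Complex.norm_real, Real.norm_eq_abs, abs_of_nonneg (by positivity), norm_smul,
    Real.norm_eq_abs, abs_of_nonneg (by positivity)]
  have h1 := norm_sum_pairs_le C (F := fun p => ∫ v, pieceLine (cycL p) (rawKer x) 1 v)
    (A := Ck * (x * √x)) (t := 0) (by positivity) fun p =>
      ((hker (criticalPiece_clearedL (cyc_comm p.1) hRH (liftChar p.1 p.2)) x hx).2).trans
        (le_of_eq (by rw [lineSize_charSize]; ring))
  have h2 := mul_le_mul_of_nonneg_left (hlin x hx).2 hs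
  have h3 : ‖-(∑ p ∈ pairs C, pairW p * ∫ v, pieceLine (cycL p) (rawKer x) 1 v) -
      (share C : ℂ) * ∫ v : ℝ, rawKer x (((1 : ℝ) : ℂ) + v * I)‖ ≤
        share C * (22 * Ck * discScale L * (x * √x)) + share C * (Cl * (x * √x)) := by
    refine (norm_sub_le _ _).trans (add_le_add ?_ ?_)
    · rw [norm_neg]
      refine h1.trans (mul_le_mul_of_nonneg_left ?_ hs)
      have := mul_le_mul_of_nonneg_left hH (show 0 ≤ 2 * (Ck * (x * √x)) by positivity)
      linarith
    · rw [norm_mul, Complex.norm_real, Real.norm_eq_abs, abs_of_nonneg hs]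
      exact h2
  have hπ : 1 / (2 * π) ≤ 1 := by
    rw [div_le_one (by positivity)]
    linarith [Real.pi_gt_three]
  have h4 : share C * (Cl * (x * √x)) ≤ 2 * Cl * (share C * discScale L * (x * √x)) := by
    nlinarith [mul_le_mul_of_nonneg_left (show (1 / 2 : ℝ) ≤ discScale L by linarith)
      (show 0 ≤ share C * (Cl * (x * √x)) by positivity)]
  refine (add_le_add hhalf ((mul_le_of_le_one_left (norm_nonneg _) hπ).trans h3)).trans ?_
  linarith

end FA.SharpCheb

end
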