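import Fermat.Agent.SharpChebotarev.ZeroSums
import Fermat.Agent.LevinsonThird.Littlewood
import Fermat.Agent.PiltzDivisor.Line
import Fermat.Agent.SelbergLandau.Box

/-!
# The shift from `re s = 1` to `re s = 1/4`

For a weight `Φ = O ((1 + |im s|)⁻²)` the integral of `Φ H'/H` on `re s = 1` differs from that on
`re s = 1/4` by at most `2 π` times `∑ m |Φ ρ|` over the zeros on the line.
-/

set_option autoImplicit false

noncomputable section

open Complex Filter MeasureTheory Set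
open FA.RiemannMangoldt (rootProd rootProd_ne_zero hasDerivAt_rootProd)
open FA.ExplicitFormula (boxInt boxEdges boxInt_congr boxInt_add boxInt_eq_zero boxInt_residue
  interior_not_edge)
open scoped Real Topology Classical

namespace FA.SharpCheb

variable {H Φ : ℂ → ℂ} {a : ℝ} {n : ℕ} {B : ℝ}

theorem isOpen_right : IsOpen {s : ℂ | 0 < s.re} := isOpen_lt continuous_const continuous_re

theorem boxInt_poles (hΦ : ∀ s : ℂ, 0 < s.re → DifferentiableAt ℂ Φ s) {T : ℝ} (hT : 0 ≤ T)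
    (W : Multiset ℂ) (hW : ∀ w ∈ W, 1 / 4 < w.re ∧ w.re < 1 ∧ |w.im| < T) :
    (∀ s ∈ boxEdges (1 / 4) 1 T, ContinuousAt (fun s => (W.map fun w => Φ s / (s - w)).sum) s) ∧
      boxInt (fun s => (W.map fun w => Φ s / (s - w)).sum) (1 / 4) 1 T =
        2 * π * I * (W.map Φ).sum := by
  induction W using Multiset.induction_on with
  | empty =>
    refine ⟨fun s _ => by simpa using continuousAt_const, ?_⟩
    simp [boxInt]
  | cons w V ih =>
    obtain ⟨hc, he⟩ := ih fun x hx => hW x (Multiset.mem_cons_of_mem hx)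
    obtain ⟨h1, h2, h3⟩ := hW w (Multiset.mem_cons_self w V)
    have hpos : ∀ s ∈ boxEdges (1 / 4) 1 T, 0 < s.re := fun s hs => by
      have := hs.1
      rw [uIcc_of_le (by norm_num)] at this
      linarith [this.1]
    have hc1 : ∀ s ∈ boxEdges (1 / 4) 1 T, ContinuousAt (fun s => Φ s / (s - w)) s := fun s hs =>
      (hΦ s (hpos s hs)).continuousAt.div (continuousAt_id.sub continuousAt_const)
        (sub_ne_zero.2 (interior_not_edge h1 h2 h3.ne hT hs))
    simp only [Multiset.map_cons, Multiset.sum_cons]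
    refine ⟨fun s hs => (hc1 s hs).add (hc s hs), ?_⟩
    rw [boxInt_add hc1 hc, he, boxInt_residue isOpen_right
      (fun s hs => (hΦ s hs).differentiableWithinAt)
      (fun s h _ => show 0 < s.re by linarith [h.1]) hT h1 h2 h3.ne, if_pos h3]
    ring

/-- **The zeros in the box.** -/
theorem boxInt_piece (hH : CriticalPiece H a n)
    (hΦ : ∀ s : ℂ, 0 < s.re → DifferentiableAt ℂ Φ s) {T : ℝ} (hT : 0 ≤ T)
    (hord : ∀ ρ, 0 < ρ.re → H ρ = 0 → |ρ.im| ≠ T) :
    boxInt (fun s => Φ s * (deriv H s / H s)) (1 / 4) 1 T = 2 * π * I *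
      ∑ ρ ∈ (hH.finite_zeros T).toFinset, (analyticOrderNatAt H ρ : ℂ) * Φ ρ := by
  obtain ⟨K, hK⟩ : ∃ K : Set ℂ, K = Icc (1 / 4 : ℝ) 1 ×ℂ Icc (-T) T := ⟨_, rfl⟩
  obtain ⟨Z, h, hh, he, hZK, hne, hcount⟩ := FA.Levinson.exists_compact_factor isOpen_univ
    (hK ▸ isCompact_Icc.reProdIm isCompact_Icc : IsCompact K) (subset_univ _)
    hH.diff.differentiableOn fun z _ => hH.order_ne_top z
  have hh' : Differentiable ℂ h := fun z => hh.differentiableAt univ_mem
  have hmemK : ∀ s : ℂ, s.re ∈ Icc (1 / 4 : ℝ) 1 → s.im ∈ Icc (-T) T → s ∈ K := fun s h1 h2 => by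
    rw [hK, mem_reProdIm]
    exact ⟨h1, h2⟩
  have hZ0 : ∀ ρ ∈ Z, H ρ = 0 := fun ρ hρ => by
    rw [he]
    refine mul_eq_zero_of_left ?_ _
    simp only [rootProd, Multiset.prod_eq_zero_iff, Multiset.mem_map]
    exact ⟨ρ, hρ, sub_self ρ⟩
  have hZin : ∀ ρ ∈ Z, 0 < ρ.re ∧ 1 / 4 < ρ.re ∧ ρ.re < 1 ∧ |ρ.im| < T := fun ρ hρ => by
    have h2 := hZK ρ hρ
    rw [hK, mem_reProdIm] at h2
    have h0 : 0 < ρ.re := lt_of_lt_of_le (by norm_num) h2.1.1
    have hr := hH.crit ρ h0 (hZ0 ρ hρ)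
    exact ⟨h0, by linarith, by linarith, lt_of_le_of_ne (abs_le.2 h2.2) (hord ρ h0 (hZ0 ρ hρ))⟩
  obtain ⟨hc1, hi1⟩ := boxInt_poles hΦ hT Z fun ρ hρ => (hZin ρ hρ).2
  have hedge' : ∀ s ∈ boxEdges (1 / 4) 1 T, s ∈ K ∧ ∀ ρ ∈ Z, s ≠ ρ := fun s hs => by
    refine ⟨?_, fun ρ hρ => ?_⟩
    · obtain ⟨h1, h2, -⟩ := hs
      rw [uIcc_of_le (by norm_num)] at h1
      rw [uIcc_of_le (by linarith)] at h2
      exact hmemK s h1 h2
    · obtain ⟨-, a1, a2, a3⟩ := hZin ρ hρ
      exact interior_not_edge a1 a2 a3.ne hT hs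
  have hpos : ∀ s ∈ K, 0 < s.re := fun s hs => by
    rw [hK, mem_reProdIm] at hs
    linarith [hs.1.1]
  have hd : ∀ s ∈ K, DifferentiableAt ℂ (fun z => Φ z * (deriv h z / h z)) s := fun s hs =>
    (hΦ s (hpos s hs)).mul (((hh'.analyticAt s).deriv.differentiableAt).div (hh' s) (hne s hs))
  have heq : boxInt (fun s => Φ s * (deriv H s / H s)) (1 / 4) 1 T = boxInt (fun s =>
      (Z.map fun w => Φ s / (s - w)).sum + Φ s * (deriv h s / h s)) (1 / 4) 1 T := by
    refine boxInt_congr fun s hs => ?_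
    obtain ⟨hsK, hsne⟩ := hedge' s hs
    have hd' : deriv H s =
        rootProd Z s * (Z.map fun ρ => (s - ρ)⁻¹).sum * h s + rootProd Z s * deriv h s := by
      rw [show H = fun w => rootProd Z w * h w from funext he]
      exact ((hasDerivAt_rootProd hsne).mul (hh' s).hasDerivAt).deriv
    have n1 := rootProd_ne_zero hsne
    have n2 := hne s hsK
    simp only [div_eq_mul_inv (Φ s), Multiset.sum_map_mul_left]
    rw [hd', he s]
    field_simp
  rw [heq, boxInt_add hc1 fun s hs => (hd s (hedge' s hs).1).continuousAt, hi1,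
    boxInt_eq_zero (by norm_num) hT fun s h1 h2 => hd s (hmemK s h1 h2), add_zero]
  congr 1
  have hsub : Z.toFinset ⊆ (hH.finite_zeros T).toFinset := fun ρ hρ => by
    rw [Multiset.mem_toFinset] at hρ
    obtain ⟨a0, -, -, a3⟩ := hZin ρ hρ
    exact (Set.Finite.mem_toFinset _).2 ⟨a0, hZ0 ρ hρ, a3.le⟩
  rw [Finset.sum_multiset_map_count, Finset.sum_subset hsub fun ρ _ hρ => by
    rw [Multiset.mem_toFinset] at hρ
    rw [Multiset.count_eq_zero.2 hρ, zero_smul]]
  refine Finset.sum_congr rfl fun ρ hρ => ?_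
  obtain ⟨h0, h1, h3⟩ := (Set.Finite.mem_toFinset _).1 hρ
  have hre := hH.crit ρ h0 h1
  rw [hcount ρ (hmemK ρ (by rw [hre]; norm_num) (abs_le.1 h3)), nsmul_eq_mul]

/-- The integrand on a line. -/
def pieceLine (H Φ : ℂ → ℂ) (c : ℝ) (v : ℝ) : ℂ :=
  Φ ((c : ℂ) + v * I) * (deriv H ((c : ℂ) + v * I) / H ((c : ℂ) + v * I))

theorem continuousAt_piece (hH : CriticalPiece H a n)
    (hΦ : ∀ s : ℂ, 0 < s.re → DifferentiableAt ℂ Φ s) {s : ℂ} (h : 0 < s.re)
    (hne : H s ≠ 0) : ContinuousAt (fun s => Φ s * (deriv H s / H s)) s :=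
  (hΦ s h).continuousAt.mul
    (FA.LevinsonThird.continuousAt_logDeriv isOpen_univ hH.diff.differentiableOn (mem_univ _) hne)

/-- **The bound and integrability on the lines.** -/
theorem exists_pieceLine_bound : ∃ C, 0 ≤ C ∧ ∀ {H Φ : ℂ → ℂ} {a : ℝ} {n : ℕ} {B : ℝ},
    CriticalPiece H a n → (∀ s : ℂ, 0 < s.re → DifferentiableAt ℂ Φ s) →
    ∀ c : ℝ, (c = 1 / 4 ∨ c = 1) → 0 ≤ B →
    (∀ v : ℝ, ‖Φ ((c : ℂ) + v * I)‖ ≤ B / (1 + |v|) ^ 2) →
      Integrable (pieceLine H Φ c) ∧ ‖∫ v, pieceLine H Φ c v‖ ≤ C * B * lineSize a n 0 := by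
  obtain ⟨C, hC, h⟩ := exists_local
  obtain ⟨J, hJ⟩ : ∃ J, J = ∫ v : ℝ, (1 + |v|) ^ (-(7 / 4) : ℝ) := ⟨_, rfl⟩
  have hJ0 : 0 ≤ J := hJ ▸ integral_nonneg fun v => by positivity
  refine ⟨48 * C * J, by positivity, fun {H Φ a n B} hH hΦ c hc hB hb => ?_⟩
  have hc4 : 1 / 4 ≤ c ∧ c ≤ 2 := by rcases hc with rfl | rfl <;> norm_num
  have hne : ∀ v : ℝ, ∀ ρ : ℂ, 0 < ρ.re → H ρ = 0 → 1 / 4 ≤ ‖((c : ℂ) + v * I) - ρ‖ := by
    intro v ρ h0 hρ
    refine le_trans ?_ (abs_re_le_norm _)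
    simp only [sub_re, add_re, ofReal_re, mul_re, I_re, mul_zero, ofReal_im, I_im, mul_one,
      sub_self, add_zero, hH.crit ρ h0 hρ]
    rcases hc with rfl | rfl <;> norm_num
  have hpt : ∀ v : ℝ, ‖pieceLine H Φ c v‖ ≤
      48 * C * B * lineSize a n 0 * (1 + |v|) ^ (-(7 / 4) : ℝ) := fun v => by
    rw [pieceLine, norm_mul]
    refine (mul_le_mul (hb v) ((h hH v).2 c (1 / 4) hc4.1 hc4.2 (by norm_num) (by norm_num)
      (hne v)) (norm_nonneg _) (by positivity)).trans ?_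
    have hv : 0 < 1 + |v| := by positivity
    refine (mul_le_mul_of_nonneg_left (div_le_div_of_nonneg_right (mul_le_mul_of_nonneg_left
      (lineSize_le_rpow hH.one_le v) hC) (by norm_num)) (by positivity)).trans (le_of_eq ?_)
    rw [show (-(7 / 4) : ℝ) = 1 / 4 - 2 by norm_num, Real.rpow_sub hv, Real.rpow_two]
    ring
  have hi : Integrable (pieceLine H Φ c) := by
    refine ((FA.PiltzDivisor.integrable_one_add_abs_rpow (r := -(7 / 4)) (by norm_num)).const_mul
      _).mono' (Continuous.aestronglyMeasurable (continuous_iff_continuousAt.2 fun v => ?_))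
        (Eventually.of_forall hpt)
    refine ContinuousAt.comp (g := fun s => Φ s * (deriv H s / H s))
      (f := fun v : ℝ => (c : ℂ) + (v : ℂ) * I) (continuousAt_piece hH hΦ ?_ ?_) (by fun_prop)
    · simp
      linarith [hc4.1]
    · intro hz
      have := hne v _ (by simp; linarith [hc4.1]) hz
      rw [sub_self, norm_zero] at this
      norm_num at this
  refine ⟨hi, (norm_integral_le_of_norm_le
    ((FA.PiltzDivisor.integrable_one_add_abs_rpow (r := -(7 / 4)) (by norm_num)).const_mul _)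
      (Eventually.of_forall hpt)).trans (le_of_eq ?_)⟩
  rw [integral_const_mul, ← hJ]
  ring

/-- **The shift across the line of zeros.** -/
theorem norm_pieceLine_one_le (hH : CriticalPiece H a n)
    (hΦ : ∀ s : ℂ, 0 < s.re → DifferentiableAt ℂ Φ s) (hB : 0 ≤ B)
    (hb : ∀ u v : ℝ, 1 / 4 ≤ u → u ≤ 1 → ‖Φ ((u : ℂ) + v * I)‖ ≤ B / (1 + |v|) ^ 2)
    {Z : ℝ} (hZ : ∀ S : Finset ℂ, (∀ ρ ∈ S, 0 < ρ.re ∧ H ρ = 0) →
      ∑ ρ ∈ S, (analyticOrderNatAt H ρ : ℝ) * ‖Φ ρ‖ ≤ Z) :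
    ‖∫ v, pieceLine H Φ 1 v‖ ≤ 2 * π * Z + ‖∫ v, pieceLine H Φ (1 / 4) v‖ := by
  obtain ⟨C, hC, hloc⟩ := exists_local
  obtain ⟨G, hG, hheight⟩ := exists_height
  obtain ⟨Cb, -, hline⟩ := exists_pieceLine_bound
  obtain ⟨hiR, -⟩ := hline hH hΦ 1 (Or.inr rfl) hB fun v => hb 1 v (by norm_num) le_rfl
  obtain ⟨hiL, -⟩ := hline hH hΦ (1 / 4) (Or.inl rfl) hB fun v => hb _ v le_rfl (by norm_num)
  choose T δ hT1 hT2 hδ0 hδ1 hδ hgap using fun m : ℕ =>
    hheight hH ((m : ℝ) + 1) (le_add_of_nonneg_left (Nat.cast_nonneg m))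
  have hT0 : ∀ m, 1 ≤ T m := fun m => by linarith [hT1 m, (Nat.cast_nonneg m : (0 : ℝ) ≤ m)]
  have hTtop : Tendsto T atTop atTop := tendsto_atTop_mono
    (fun m => by linarith [hT1 m]) tendsto_natCast_atTop_atTop
  obtain ⟨c, hc⟩ : ∃ c, c = B * (C * G * (144 * lineSize a n 0 ^ 2)) := ⟨_, rfl⟩
  have hhor : ∀ m (w : ℝ), |w| = T m →
      ‖∫ u in (1 / 4 : ℝ)..1, Φ ((u : ℂ) + (w : ℂ) * I) *
        (deriv H ((u : ℂ) + (w : ℂ) * I) / H ((u : ℂ) + (w : ℂ) * I))‖ ≤ c * (T m)⁻¹ := by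
    intro m w hw
    have ht1 := hT0 m
    have hS1 := one_le_lineSize (n := n) hH.one_le (T m)
    refine (intervalIntegral.norm_integral_le_of_norm_le_const (C := c * (T m)⁻¹)
      fun u hu => ?_).trans ?_
    · rw [uIoc_of_le (by norm_num)] at hu
      have h1 := (hloc hH w).2 u (δ m) hu.1.le (by linarith [hu.2]) (hδ0 m) (hδ1 m) fun ρ h0 hρ =>
        (hgap m ρ h0 hρ).trans (by
          have := abs_im_le_norm ((u : ℂ) + w * I - ρ)
          rw [sub_im, abs_sub_comm, show ((u : ℂ) + w * I).im = w by simp] at this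
          refine le_trans ?_ this
          rw [← hw]
          exact abs_abs_sub_abs_le_abs_sub ρ.im w)
      rw [← lineSize_abs w, hw] at h1
      have h2 : C * lineSize a n (T m) / δ m ≤ C * G * lineSize a n (T m) ^ 2 := by
        rw [div_eq_mul_one_div, show C * G * lineSize a n (T m) ^ 2 =
          C * lineSize a n (T m) * (G * lineSize a n (T m)) by ring]
        refine mul_le_mul_of_nonneg_left ((hδ m).trans (mul_le_mul_of_nonneg_left
          (lineSize_mono ?_) hG.le)) (mul_nonneg hC (by linarith))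
        rw [abs_of_nonneg (by positivity), abs_of_nonneg (by linarith)]
        exact hT1 m
      have h3 : lineSize a n (T m) ^ 2 ≤ 144 * lineSize a n 0 ^ 2 * (1 + T m) := by
        have hh := lineSize_le_rpow (n := n) hH.one_le (T m)
        rw [abs_of_nonneg (by linarith : 0 ≤ T m)] at hh
        refine (pow_le_pow_left₀ (by linarith) hh 2).trans ?_
        rw [show (12 * lineSize a n 0 * (1 + T m) ^ (1 / 4 : ℝ)) ^ 2 =
          144 * lineSize a n 0 ^ 2 * ((1 + T m) ^ (1 / 4 : ℝ)) ^ 2 by ring]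
        refine mul_le_mul_of_nonneg_left ?_ (by positivity)
        rw [← Real.rpow_natCast _ 2, ← Real.rpow_mul (by linarith)]
        exact Real.rpow_le_self_of_one_le (by linarith) (by norm_num)
      have hk : ‖Φ ((u : ℂ) + (w : ℂ) * I)‖ ≤ B / (1 + T m) ^ 2 := hw ▸ hb u w hu.1.le hu.2
      rw [norm_mul]
      refine (mul_le_mul hk ((h1.trans h2).trans (mul_le_mul_of_nonneg_left h3 (by positivity)))
        (norm_nonneg _) (by positivity)).trans ?_
      rw [hc, show B / (1 + T m) ^ 2 * (C * G * (144 * lineSize a n 0 ^ 2 * (1 + T m))) =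
        B * (C * G * (144 * lineSize a n 0 ^ 2)) * (1 + T m)⁻¹ by field_simp]
      exact mul_le_mul_of_nonneg_left (inv_anti₀ (by linarith) (by linarith)) (by positivity)
    · have : 0 ≤ c * (T m)⁻¹ := by rw [hc]; positivity
      norm_num
      linarith
  have hlim : ∀ e : ℝ, (e = 1 ∨ e = -1) → Tendsto
      (fun m => ∫ u in (1 / 4 : ℝ)..1, Φ ((u : ℂ) + ((e * T m : ℝ) : ℂ) * I) *
        (deriv H ((u : ℂ) + ((e * T m : ℝ) : ℂ) * I) / H ((u : ℂ) + ((e * T m : ℝ) : ℂ) * I)))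
        atTop (𝓝 0) := fun e he => by
    refine squeeze_zero_norm (fun m => hhor m _ ?_) ?_
    · rcases he with rfl | rfl <;> simp [abs_of_nonneg (zero_le_one.trans (hT0 m))]
    · simpa using hTtop.inv_tendsto_atTop.const_mul c
  have hbot := hlim (-1) (Or.inr rfl)
  have htop := hlim 1 (Or.inl rfl)
  simp only [neg_one_mul, one_mul] at hbot htop
  have hneg' : Tendsto (fun m => -T m) atTop atBot := tendsto_neg_atTop_atBot.comp hTtop
  have hl := intervalIntegral_tendsto_integral hiL hneg' hTtop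
  have hr := intervalIntegral_tendsto_integral hiR hneg' hTtop
  have hbox := ((hbot.sub htop).add (hr.const_mul I)).sub (hl.const_mul I)
  rw [sub_zero, zero_add, ← mul_sub] at hbox
  have hle := le_of_tendsto hbox.norm (Eventually.of_forall fun m => (?_ : _ ≤ 2 * π * Z))
  · rw [norm_mul, Complex.norm_I, one_mul] at hle
    have := norm_sub_norm_le (∫ v, pieceLine H Φ 1 v) (∫ v, pieceLine H Φ (1 / 4) v)
    linarith
  · have h2 := boxInt_piece hH hΦ (zero_le_one.trans (hT0 m)) fun ρ h0 hρ h => by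
      have := hgap m ρ h0 hρ
      rw [h, sub_self, abs_zero] at this
      linarith [hδ0 m]
    simp only [boxInt] at h2
    simp only [pieceLine]
    rw [h2, norm_mul, norm_mul, norm_mul, Complex.norm_I, mul_one, Complex.norm_two,
      Complex.norm_real, Real.norm_eq_abs, abs_of_pos Real.pi_pos]
    refine mul_le_mul_of_nonneg_left ((norm_sum_le _ _).trans (le_trans (le_of_eq ?_)
      (hZ (hH.finite_zeros (T m)).toFinset fun ρ hρ => ⟨((Set.Finite.mem_toFinset _).1 hρ).1,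
        ((Set.Finite.mem_toFinset _).1 hρ).2.1⟩))) (by positivity)
    exact Finset.sum_congr rfl fun ρ _ => by rw [norm_mul, Complex.norm_natCast]

end FA.SharpCheb

end
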