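import Fermat.Agent.SharpChebotarev.Local
import Fermat.Agent.GRHProgressions.ZeroSums

/-!
# Sums over the zeros on the line

`∑_{|γ| ≤ N} m / (1 + |γ|) = O (size N (1 + log (N + 1)))`,
`∑_{|γ| ≥ N} m / (1 + |γ|)² = O (size N / (N + 1))`, and a height at distance `1 / O (size T)` from
all of them in each `[T, T + 1]`.
-/

set_option autoImplicit false

noncomputable section

open Complex Finset
open scoped Real Classical

namespace FA.SharpCheb

variable {H : ℂ → ℂ} {a : ℝ} {n : ℕ}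

/-- **The zeros with `⌊|γ|⌋ = k`.** -/
theorem exists_fold : ∃ C, 0 ≤ C ∧ ∀ {H : ℂ → ℂ} {a : ℝ} {n : ℕ}, CriticalPiece H a n →
    ∀ (k : ℕ) (S : Finset ℂ), (∀ ρ ∈ S, 0 < ρ.re ∧ ⌊|ρ.im|⌋₊ = k) →
      ∑ ρ ∈ S, (analyticOrderNatAt H ρ : ℝ) ≤ C * lineSize a n k := by
  obtain ⟨C, hC, h⟩ := exists_local
  refine ⟨2 * C, by positivity, fun {H a n} hH k S hS => ?_⟩
  rw [← sum_filter_add_sum_filter_not S fun ρ => 0 ≤ ρ.im]
  have hb : ∀ ρ ∈ S, (k : ℝ) ≤ |ρ.im| ∧ |ρ.im| < k + 1 := fun ρ hρ => by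
    rw [← (hS ρ hρ).2]
    exact ⟨Nat.floor_le (abs_nonneg _), Nat.lt_floor_add_one _⟩
  have h1 := (h hH (k : ℝ)).1 (S.filter fun ρ => 0 ≤ ρ.im) fun ρ hρ => by
    obtain ⟨hρS, hi⟩ := Finset.mem_filter.1 hρ
    obtain ⟨b1, b2⟩ := hb ρ hρS
    rw [abs_of_nonneg hi] at b1 b2
    exact ⟨(hS ρ hρS).1, abs_le.2 ⟨by linarith, by linarith⟩⟩
  have h2 := (h hH (-(k : ℝ))).1 (S.filter fun ρ => ¬ 0 ≤ ρ.im) fun ρ hρ => by
    obtain ⟨hρS, hi⟩ := Finset.mem_filter.1 hρ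
    obtain ⟨b1, b2⟩ := hb ρ hρS
    rw [abs_of_nonpos (le_of_not_ge hi)] at b1 b2
    exact ⟨(hS ρ hρS).1, abs_le.2 ⟨by linarith, by linarith⟩⟩
  rw [show lineSize a n (-(k : ℝ)) = lineSize a n k by rw [lineSize, lineSize, abs_neg]] at h2
  linarith

theorem lineSize_le_ratio (ha : 1 ≤ a) {N k : ℕ} (h : N ≤ k) :
    lineSize a n k ≤ 6 * lineSize a n N * (√((k : ℝ) + 1) / √((N : ℝ) + 1)) := by
  have hk : (N : ℝ) ≤ k := Nat.cast_le.2 h
  obtain ⟨r, hr⟩ : ∃ r : ℝ, r = ((k : ℝ) + 3) / ((N : ℝ) + 3) := ⟨_, rfl⟩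
  have hr1 : 1 ≤ r := by rw [hr, le_div_iff₀ (by positivity)]; linarith
  have hs1 : 1 ≤ √r := Real.one_le_sqrt.2 hr1
  have e : lineSize a n k = lineSize a n N + n * Real.log r := by
    rw [lineSize, lineSize, Nat.abs_cast, Nat.abs_cast, hr,
      Real.log_div (by positivity) (by positivity)]
    ring
  have hl : Real.log r ≤ 2 * √r := by
    have h' := Real.log_le_sub_one_of_pos (Real.sqrt_pos.2 (show 0 < r by linarith))
    rw [Real.log_sqrt (by linarith)] at h'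
    linarith
  have hn : (n : ℝ) ≤ lineSize a n N := by
    rw [lineSize]
    linarith [le_mul_of_one_le_right (Nat.cast_nonneg n : (0 : ℝ) ≤ n)
      (FA.DedekindZF.one_le_log (N : ℝ))]
  have h1 := one_le_lineSize (n := n) ha (N : ℝ)
  have h3 : lineSize a n k ≤ 3 * lineSize a n N * √r := by
    have := mul_le_mul hn hl (Real.log_nonneg hr1) (by linarith)
    have := le_mul_of_one_le_right (show 0 ≤ lineSize a n N by linarith) hs1
    rw [e]
    linarith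
  refine h3.trans ?_
  have h4 : √((k : ℝ) + 3) ≤ 2 * √((k : ℝ) + 1) := by
    refine (Real.sqrt_le_sqrt (show (k : ℝ) + 3 ≤ 2 ^ 2 * ((k : ℝ) + 1) by
      linarith [(Nat.cast_nonneg k : (0 : ℝ) ≤ k)])).trans (le_of_eq ?_)
    rw [Real.sqrt_mul (by norm_num), Real.sqrt_sq (by norm_num)]
  have hsr : √r ≤ 2 * (√((k : ℝ) + 1) / √((N : ℝ) + 1)) := by
    rw [hr, Real.sqrt_div (by positivity), mul_div_assoc']
    exact div_le_div₀ (by positivity) h4 (by positivity) (Real.sqrt_le_sqrt (by linarith))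
  nlinarith [mul_le_mul_of_nonneg_left hsr (show 0 ≤ 3 * lineSize a n N by linarith)]

/-- **The zeros beyond `N`.** -/
theorem exists_tail : ∃ C, 0 ≤ C ∧ ∀ {H : ℂ → ℂ} {a : ℝ} {n : ℕ}, CriticalPiece H a n →
    ∀ (N : ℕ) (S : Finset ℂ), (∀ ρ ∈ S, 0 < ρ.re ∧ (N : ℝ) ≤ |ρ.im|) →
      ∑ ρ ∈ S, (analyticOrderNatAt H ρ : ℝ) / (1 + |ρ.im|) ^ 2 ≤
        C * lineSize a n N / ((N : ℝ) + 1) := by
  obtain ⟨C, hC, h⟩ := exists_fold
  refine ⟨24 * C, by positivity, fun {H a n} hH N S hS => ?_⟩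
  obtain ⟨M, hM⟩ : ∃ M, M = max N ((S.sup fun ρ => ⌊|ρ.im|⌋₊) + 1) := ⟨_, rfl⟩
  rw [← sum_fiberwise_of_maps_to (t := Finset.Ico N M) (g := fun ρ : ℂ => ⌊|ρ.im|⌋₊)
    fun ρ hρ => Finset.mem_Ico.2 ⟨Nat.le_floor (hS ρ hρ).2, hM ▸ lt_of_lt_of_le
      (Nat.lt_succ_of_le (Finset.le_sup (f := fun ρ : ℂ => ⌊|ρ.im|⌋₊) hρ)) (le_max_right _ _)⟩]
  obtain ⟨g, hg⟩ : ∃ g : ℕ → ℝ, g = fun (k : ℕ) => 1 / √((k : ℝ) + 1) := ⟨_, rfl⟩
  have q1 := one_le_lineSize (n := n) hH.one_le (N : ℝ)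
  obtain ⟨B, hB⟩ : ∃ B, B = 24 * C * lineSize a n N / √((N : ℝ) + 1) := ⟨_, rfl⟩
  have hB0 : 0 ≤ B := hB ▸ div_nonneg (mul_nonneg (by positivity) (by linarith)) (by positivity)
  refine (sum_le_sum (g := fun k => B * (g k - g (k + 1))) fun k hk => ?_).trans ?_
  · have hkN := (Finset.mem_Ico.1 hk).1
    refine (sum_le_sum (g := fun ρ => (analyticOrderNatAt H ρ : ℝ) / ((k : ℝ) + 1) ^ 2)
      fun ρ hρ => ?_).trans ?_
    · obtain ⟨-, hf⟩ := Finset.mem_filter.1 hρ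
      refine div_le_div_of_nonneg_left (Nat.cast_nonneg _) (by positivity)
        (pow_le_pow_left₀ (by positivity) ?_ 2)
      rw [← hf]
      linarith [Nat.floor_le (abs_nonneg ρ.im)]
    rw [← Finset.sum_div]
    refine (div_le_div_of_nonneg_right ((h hH k _ fun ρ hρ =>
      ⟨(hS ρ (Finset.mem_filter.1 hρ).1).1, (Finset.mem_filter.1 hρ).2⟩).trans
        (mul_le_mul_of_nonneg_left (lineSize_le_ratio hH.one_le hkN) hC)) (by positivity)).trans ?_
    have e : g k - g (k + 1) = 1 / √((k : ℝ) + 1) - 1 / √((k : ℝ) + 2) := by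
      rw [hg]
      push_cast
      ring_nf
    rw [e, hB]
    have := mul_le_mul_of_nonneg_left (FA.GRHProgressions.inv_pow_le_step k)
      (show 0 ≤ 6 * C * lineSize a n N / √((N : ℝ) + 1) from
        div_nonneg (mul_nonneg (by positivity) (by linarith)) (by positivity))
    refine le_trans (le_of_eq (by ring)) (this.trans (le_of_eq (by ring)))
  · rw [← Finset.mul_sum]
    have htel : ∀ M, N ≤ M → ∑ k ∈ Finset.Ico N M, (g k - g (k + 1)) = g N - g M := by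
      intro M hM
      induction M, hM using Nat.le_induction with
      | base => simp
      | succ m hm ih => rw [Finset.sum_Ico_succ_top hm, ih]; ring
    rw [htel M (hM ▸ le_max_left _ _)]
    have hgM : 0 ≤ g M := hg ▸ by positivity
    calc B * (g N - g M) ≤ B * g N := mul_le_mul_of_nonneg_left (by linarith) hB0
      _ = _ := by
          rw [hB, hg]
          simp only
          rw [div_mul_div_comm, mul_one, Real.mul_self_sqrt (by positivity)]

/-- **The zeros up to `N`.** -/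
theorem exists_head : ∃ C, 0 ≤ C ∧ ∀ {H : ℂ → ℂ} {a : ℝ} {n : ℕ}, CriticalPiece H a n →
    ∀ (N : ℕ) (S : Finset ℂ), (∀ ρ ∈ S, 0 < ρ.re ∧ |ρ.im| ≤ N) →
      ∑ ρ ∈ S, (analyticOrderNatAt H ρ : ℝ) / (1 + |ρ.im|) ≤
        C * lineSize a n N * (1 + Real.log ((N : ℝ) + 1)) := by
  obtain ⟨C, hC, h⟩ := exists_fold
  refine ⟨C, hC, fun {H a n} hH N S hS => ?_⟩
  rw [← sum_fiberwise_of_maps_to (t := Finset.range (N + 1)) (g := fun ρ : ℂ => ⌊|ρ.im|⌋₊)
    fun ρ hρ => Finset.mem_range.2 (Nat.lt_succ_of_le (Nat.floor_le_of_le (hS ρ hρ).2))]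
  have hH1 := one_le_lineSize (n := n) hH.one_le (N : ℝ)
  refine (sum_le_sum (g := fun k : ℕ => C * lineSize a n N * (((k + 1 : ℕ) : ℝ))⁻¹)
    fun k hk => ?_).trans ?_
  · refine (sum_le_sum (g := fun ρ => (analyticOrderNatAt H ρ : ℝ) / ((k : ℝ) + 1))
      fun ρ hρ => ?_).trans ?_
    · obtain ⟨-, hf⟩ := Finset.mem_filter.1 hρ
      refine div_le_div_of_nonneg_left (Nat.cast_nonneg _) (by positivity) ?_
      rw [← hf]
      linarith [Nat.floor_le (abs_nonneg ρ.im)]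
    rw [← Finset.sum_div, Nat.cast_succ, ← div_eq_mul_inv]
    refine div_le_div_of_nonneg_right ((h hH k _ fun ρ hρ =>
      ⟨(hS ρ (Finset.mem_filter.1 hρ).1).1, (Finset.mem_filter.1 hρ).2⟩).trans
        (mul_le_mul_of_nonneg_left (lineSize_mono ?_) hC)) (by positivity)
    rw [Nat.abs_cast, Nat.abs_cast]
    exact Nat.cast_le.2 (Nat.lt_succ_iff.1 (Finset.mem_range.1 hk))
  · rw [← Finset.mul_sum]
    refine mul_le_mul_of_nonneg_left ?_ (mul_nonneg hC (by linarith))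
    have := harmonic_le_one_add_log (N + 1)
    simp only [harmonic] at this
    push_cast at this
    simpa using this

theorem CriticalPiece.finite_zeros (hH : CriticalPiece H a n) (T : ℝ) :
    {ρ : ℂ | 0 < ρ.re ∧ H ρ = 0 ∧ |ρ.im| ≤ T}.Finite := by
  refine (FA.Levinson.finite_zeros_compact isOpen_univ
    ((isCompact_Icc.reProdIm isCompact_Icc) :
      IsCompact (Set.Icc (1 / 2 : ℝ) (1 / 2) ×ℂ Set.Icc (-T) T)) (Set.subset_univ _)
    hH.diff.differentiableOn fun z _ => hH.order_ne_top z).subset ?_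
  rintro ρ ⟨h0, hz, hT⟩
  exact ⟨mem_reProdIm.2 ⟨by simp [hH.crit ρ h0 hz], Set.mem_Icc.2 (abs_le.1 hT)⟩, hz⟩

theorem CriticalPiece.one_le_mult (hH : CriticalPiece H a n) {ρ : ℂ} (h : H ρ = 0) :
    (1 : ℝ) ≤ analyticOrderNatAt H ρ := by
  refine Nat.one_le_cast.2 (Nat.one_le_iff_ne_zero.2 fun e => ?_)
  rcases ENat.toNat_eq_zero.1 e with e | e
  · exact (hH.diff.analyticAt ρ).analyticOrderAt_ne_zero.2 h e
  · exact hH.order_ne_top ρ e

/-- **A height away from the zeros.** -/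
theorem exists_height : ∃ C, 0 < C ∧ ∀ {H : ℂ → ℂ} {a : ℝ} {n : ℕ}, CriticalPiece H a n →
    ∀ T : ℝ, 1 ≤ T → ∃ t δ, T ≤ t ∧ t ≤ T + 1 ∧ 0 < δ ∧ δ ≤ 1 ∧ 1 / δ ≤ C * lineSize a n T ∧
      ∀ ρ, 0 < ρ.re → H ρ = 0 → δ ≤ |(|ρ.im| - t)| := by
  obtain ⟨C, hC, h⟩ := exists_local
  refine ⟨24 * C + 6, by positivity, fun {H a n} hH T hT => ?_⟩
  obtain ⟨Z, hZ⟩ : ∃ Z : Finset ℂ, Z = ((hH.finite_zeros (T + 2)).toFinset).filter
      fun ρ => T - 1 < |ρ.im| := ⟨_, rfl⟩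
  obtain ⟨A, hA⟩ : ∃ A : Finset ℝ, A = Z.image fun ρ => |ρ.im| := ⟨_, rfl⟩
  have hZm : ∀ ρ ∈ Z, 0 < ρ.re ∧ H ρ = 0 ∧ |ρ.im| ≤ T + 2 ∧ T - 1 < |ρ.im| := fun ρ hρ => by
    rw [hZ, Finset.mem_filter, Set.Finite.mem_toFinset] at hρ
    exact ⟨hρ.1.1, hρ.1.2.1, hρ.1.2.2, hρ.2⟩
  have hwin : ∀ c : ℝ, |c| ≤ T + 1 → (((Z.filter fun ρ => |ρ.im - c| ≤ 1).card : ℕ) : ℝ) ≤
      2 * C * lineSize a n T := fun c hc => by
    refine le_trans (le_trans (le_of_eq (by simp)) (sum_le_sum (f := fun _ => (1 : ℝ))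
      fun ρ hρ => hH.one_le_mult (hZm ρ (Finset.mem_filter.1 hρ).1).2.1))
      (((h hH c).1 _ fun ρ hρ => ⟨(hZm ρ (Finset.mem_filter.1 hρ).1).1,
        (Finset.mem_filter.1 hρ).2⟩).trans ?_)
    rw [show 2 * C * lineSize a n T = C * (2 * lineSize a n T) by ring]
    refine mul_le_mul_of_nonneg_left (lineSize_near hH.one_le ?_) hC
    linarith [le_abs_self T]
  have hsub : Z ⊆ ((Z.filter fun ρ => |ρ.im - T| ≤ 1) ∪ (Z.filter fun ρ => |ρ.im - (T + 1)| ≤ 1)) ∪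
      ((Z.filter fun ρ => |ρ.im - -T| ≤ 1) ∪ (Z.filter fun ρ => |ρ.im - -(T + 1)| ≤ 1)) := by
    intro ρ hρ
    obtain ⟨-, -, u1, u2⟩ := hZm ρ hρ
    simp only [Finset.mem_union, Finset.mem_filter, hρ, true_and, abs_le]
    rcases le_total 0 ρ.im with hi | hi
    · rw [abs_of_nonneg hi] at u1 u2
      rcases le_total ρ.im (T + 1) with hl | hl
      · exact Or.inl (Or.inl ⟨by linarith, by linarith⟩)
      · exact Or.inl (Or.inr ⟨by linarith, by linarith⟩)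
    · rw [abs_of_nonpos hi] at u1 u2
      rcases le_total (-ρ.im) (T + 1) with hl | hl
      · exact Or.inr (Or.inl ⟨by linarith, by linarith⟩)
      · exact Or.inr (Or.inr ⟨by linarith, by linarith⟩)
  have hcard : (A.card : ℝ) ≤ 8 * C * lineSize a n T := by
    refine (Nat.cast_le.2 (((hA ▸ Finset.card_image_le).trans (Finset.card_le_card hsub)).trans
      ((Finset.card_union_le _ _).trans
        (add_le_add (Finset.card_union_le _ _) (Finset.card_union_le _ _))))).trans ?_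
    push_cast
    have w1 := hwin T (by rw [abs_of_nonneg (by linarith)]; linarith)
    have w2 := hwin (T + 1) (by rw [abs_of_nonneg (by linarith)])
    have w3 := hwin (-T) (by rw [abs_neg, abs_of_nonneg (by linarith)]; linarith)
    have w4 := hwin (-(T + 1)) (by rw [abs_neg, abs_of_nonneg (by linarith)])
    linarith
  have hS1 := one_le_lineSize (n := n) hH.one_le T
  obtain ⟨d, hd⟩ : ∃ d : ℝ, d = 1 / ((A.card : ℝ) + 2) := ⟨_, rfl⟩
  have hd0 : 0 < d := by rw [hd]; positivity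
  obtain ⟨j, hj, hfree⟩ : ∃ j ∈ Finset.range (A.card + 1),
      ∀ x ∈ A, d / 3 ≤ |x - (T + ((j : ℝ) + 1) * d)| := by
    by_contra hno
    push Not at hno
    choose! f hf hclose using hno
    have hinj : Set.InjOn f (Finset.range (A.card + 1) : Set ℕ) := by
      intro i hi j hj hij
      have h1 := hclose i hi
      have h2 := hclose j hj
      rw [hij] at h1
      rw [abs_lt] at h1 h2
      by_contra hne
      rcases Nat.lt_or_gt_of_ne hne with hlt | hlt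
      · have h3 : ((i : ℝ) + 1) ≤ j := by exact_mod_cast hlt
        nlinarith
      · have h3 : ((j : ℝ) + 1) ≤ i := by exact_mod_cast hlt
        nlinarith
    have := Finset.card_le_card_of_injOn f (fun i hi => hf i hi) hinj
    rw [Finset.card_range] at this
    omega
  have hjd : ((j : ℝ) + 2) * d ≤ 1 := by
    rw [hd, mul_one_div, div_le_one (by positivity)]
    have : (j : ℝ) ≤ A.card := by exact_mod_cast Nat.lt_succ_iff.1 (Finset.mem_range.1 hj)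
    linarith
  have hj0 : 0 ≤ (j : ℝ) * d := by positivity
  refine ⟨T + ((j : ℝ) + 1) * d, d / 3, by nlinarith, by nlinarith, by positivity, by nlinarith,
    ?_, fun ρ h0 hρ => ?_⟩
  · rw [hd, one_div_div, div_div_eq_mul_div, div_one]
    nlinarith
  · by_cases hm : T - 1 < |ρ.im| ∧ |ρ.im| ≤ T + 2
    · refine hfree _ ?_
      rw [hA, hZ]
      exact Finset.mem_image.2 ⟨ρ, Finset.mem_filter.2
        ⟨(Set.Finite.mem_toFinset _).2 ⟨h0, hρ, hm.2⟩, hm.1⟩, rfl⟩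
    · rcases le_or_gt |ρ.im| (T - 1) with h1 | h1
      · rw [abs_of_nonpos (by nlinarith)]
        nlinarith
      · have h2 : T + 2 < |ρ.im| := lt_of_not_ge fun h => hm ⟨h1, h⟩
        rw [abs_of_nonneg (by nlinarith)]
        nlinarith

end FA.SharpCheb

end
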